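import Mathlib
import Fermat.Agent.LT.T7.H962.SupplyQSpec
import Fermat.Agent.LT.T7.H893.SupplyFamSpec

/-!
# Row LT, tower T7, node T7.L2Q.1.F `FamQC962` (quadratic step `F = ℚ(√-3)` over `ℚ`):
# SECOND CUT -- Spec (helper732, registry row 2262; mirror of helper893 `SupplyFamSpec.lean`)

OFF-MAIN.  Definitions and frozen Props only (the proved top is `SupplyQFamTop.lean`).  No hole,
nothing assumed.  ADDITIVE (new names only, all suffixed `732`).  Vocabulary: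
`T7/H962/SupplyQSpec.lean` (helper962@39bd27364, sha256 8375a60b), `T7/H826/Level2Q.lean`
(helper826@4ba4a298a, sha256 3acaa310), `T7/H893/SupplyFamSpec.lean` (helper893@a538b800c,
sha256 32dee4c8: the operations `ltr`, `lsum`, `iwL`, `regL`, `IsUInv` are USED AS THEY ARE),
byte-identical copies.

    famQC_of732 : PreQC732 P F → EkProdUpQC732 F → EkProdDownQC732 F → OpUpQC732 F
                    → KillUpQC732 F → OpDownQC732 F → ClassDownQC732 F → CommDownQC732 F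
                    → KillDownQC732 F → H962.FamQC962 P F

## The shape of the families (ONE bad element `g`)

Upstairs (the field `F`, `ℓ = 2`, trivial type) NOTHING changes with respect to the cyclic case:

    φ' X k m = Φ₁ X ⋆ lsum Hg (regL (o 0) z' H' k m φ₂).

Downstairs (over `ℚ`) there are TWO families, one for each `K_∞`-type `n ∈ {w0, w1}`
(`L2Q.QWt`: trivial type, weight one), with base functions `F₁ n X`, `f₂ n` OF TYPE `n`:

    f n X k m = F₁ n X ⋆ regL u z H k m (f₂ n),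

and THE SUM `f w0 X k m + f w1 X k m` is matched with `φ' X k m` (`T6.ArchMatchC`: the function
matching a bi-`U(2)`-invariant function at the complex place is `f₀ + f₁`; the mixed products
`F₁ w0 ⋆ f₂ w1`, `F₁ w1 ⋆ f₂ w0` vanish, so `(F₁ w0 + F₁ w1) ⋆ (f₂ w0 + f₂ w1)` is the sum of the
two members).  The coset systems `H`, `z` at the regular prime `u` and the level `𝔫` are the SAME
for the two types.

* **`PreQC732 P F`** (NODE = the CONSTRUCTION and the GEOMETRY; mirror of `H893.PreC`): pre-data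
  with `IsL2QPre732` exist.  Inputs: T3 over `ℚ` (station T3.18R: Eisenstein-killing test
  functions of the types `w0`, `w1`, general archimedean parameter), `T6.ArchMatchC`,
  `T6.ArchInjC` (closed sub-tower T6inf), the regularity of helper32 (`T5/H32/RegConv.lean`) and
  the matching station of helper584.
* **8 LEAVES (bookkeeping; cosets, translates, Fubini)**: the mirrors of the 8 leaves of
  helper893.  The three leaves upstairs (`EkProdUpQC732`, `OpUpQC732`, `KillUpQC732`) have THE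
  SAME proofs as `H893.EkProdUpC`, `H893.OpUpC`, `H893.KillUpC` (only the fields upstairs of the
  pre-data and of the common part are used; `ℓ = 2`); the five leaves downstairs are the proofs of
  `H893.EkProdDownC`, …, `H893.KillDownC` with the type `n.type` in the place of the trivial type
  (`T5.IsTestFn 𝔫 n.type`, `T5.IsCuspFn 𝔫 n.type`, `L2Q.IsWFnQ n`, `L2Q.IsEigFnQ n`,
  `L2Q.IsBCDataQ n`, `L2Q.IsEKProdT n.type`).
-/

set_option autoImplicit false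

open AutomorphicForm IsDedekindDomain NumberField MeasureTheory
open scoped ComplexConjugate

noncomputable section

namespace Fermat.Agent.LT.T7.H732

open Fermat.Agent.LT.H556 Fermat.Agent.LT.H556.A0 Fermat.Agent.LT.T7 Fermat.Agent.LT.T7.L2Q
  Fermat.Agent.LT.T7.H893 Fermat.Agent.LT.T7.H962

attribute [local instance] Fermat.Agent.LT.T5.instMeasurableSpaceG

/-! ## 1. The pre-data and the families -/

section Pre

variable (F : Type) [Field F] [NumberField F]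

/-- The PRE-DATA for one bad element, quadratic step.  See the header. -/
structure L2QPre732 where
  /-- the level downstairs -/
  𝔫 : Ideal (𝓞 ℚ)
  /-- the scalar of the first base function upstairs -/
  c₁ : EigData F → ℂ
  /-- the scalar of the second base function upstairs -/
  c₂ : EigData F → ℂ
  /-- the first base function upstairs, with the word applied -/
  Φ₁ : List (Gen F) → G F → ℂ
  /-- the second base function upstairs -/
  φ₂ : G F → ℂ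
  /-- the first base functions downstairs (one for each type), with the base change of the word
  applied -/
  F₁ : QWt → List (Gen F) → G ℚ → ℂ
  /-- the second base functions downstairs (one for each type) -/
  f₂ : QWt → G ℚ → ℂ
  /-- representatives of `U(𝔑₀) g U(𝔑₀) / U(𝔑₀)` -/
  Hg : Finset (G F)
  /-- an Iwahori coset system at `o 0` -/
  H' : Finset (G F)
  /-- a scalar uniformiser at `o 0` -/
  z' : G F
  /-- an Iwahori coset system at `u` -/
  H : Finset (G ℚ)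
  /-- a scalar uniformiser at `u` -/
  z : G ℚ
  /-- the regular depth -/
  m₀ : List (Gen F) → ℕ

variable {F}

/-- The member of the family upstairs. -/
def L2QPre732.up (B : L2QBase962 F) (E : L2QPre732 F) (X : List (Gen F)) (k : ℤ) (m : ℕ) :
    G F → ℂ :=
  T5.conv B.R'.μ (E.Φ₁ X) (lsum E.Hg (regL (B.o 0) E.z' E.H' k m E.φ₂))

/-- The member of type `n` of the families downstairs. -/
def L2QPre732.down (B : L2QBase962 F) (E : L2QPre732 F) (n : QWt) (X : List (Gen F)) (k : ℤ)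
    (m : ℕ) : G ℚ → ℂ :=
  T5.conv B.R.μ (E.F₁ n X) (regL B.u E.z E.H k m (E.f₂ n))

/-- THE FAMILIES of the pre-data. -/
def L2QPre732.toFam (B : L2QBase962 F) (E : L2QPre732 F) : L2QFam962 F where
  𝔫 := E.𝔫
  c := fun C => E.c₁ C * E.c₂ C
  φ' := E.up B
  f := fun n => E.down B n
  m₀ := E.m₀

/-- **THE PROPERTIES OF THE PRE-DATA** for the bad element `g`, quadratic step. -/
structure IsL2QPre732 (Φ : HeckeEigensystem F ℂ) (B : L2QBase962 F) (g : G F)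
    (E : L2QPre732 F) : Prop where
  -- levels
  level_ne : E.𝔫 ≠ ⊥
  level_g : upI (K' := F) E.𝔫 ≤ B.𝔑₀
  mem_S'_g : ∀ w : HeightOneSpectrum (𝓞 F), w ∈ B.S' ↔ w.asIdeal ∣ upI (K' := F) E.𝔫
  u_level : B.u.asIdeal ∣ E.𝔫
  -- coset systems
  sysg : IsDblCosetSystem B.𝔑₀ g E.Hg
  sys' : IsIwCosetSystem (B.o 0) E.H'
  unif' : IsScalarUniformizerAt (B.o 0) E.z'
  sys : IsIwCosetSystem B.u E.H
  unif : IsScalarUniformizerAt B.u E.z
  -- the first base function upstairs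
  up1_test : ∀ X : List (Gen F), (∀ x ∈ X, x.Out B.S') →
    T5.IsTestFn (upI (K' := F) E.𝔫) T5.trivType (E.Φ₁ X)
  up1_ek : ∀ X : List (Gen F), (∀ x ∈ X, x.Out B.S') →
    T5.IsEK B.R'.μ (E.Φ₁ X) ∧ T5.IsEK B.R'.μ (T5.adjointFn (E.Φ₁ X))
  /-- the scalar of `Φ₁ X` on the invariant eigenfunctions of the base level -/
  up1_op : ∀ X : List (Gen F), (∀ x ∈ X, x.Out B.S') →
    ∀ (χ : G F → ℂ) (C : EigData F), IsEigFn B.𝔑₀ B.R'.r 2 B.o χ C →
      ∀ x : G F, T5.Rconv B.R'.μ (E.Φ₁ X) χ x = wordEv X C * E.c₁ C * χ x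
  -- the second base function upstairs
  up2_test : T5.IsTestFn (upI (K' := F) E.𝔫) T5.trivType E.φ₂
  up2_ek : T5.IsEK B.R'.μ E.φ₂ ∧ T5.IsEK B.R'.μ (T5.adjointFn E.φ₂)
  up2_inv : IsUInv B.𝔑₀ 2 B.o E.φ₂
  /-- the scalar of `φ₂` on the invariant eigenfunctions of the base level -/
  up2_op : ∀ (ψ : G F → ℂ) (C : EigData F), IsEigFn B.𝔑₀ B.R'.r 2 B.o ψ C →
    ∀ x : G F, T5.Rconv B.R'.μ E.φ₂ ψ x = E.c₂ C * ψ x
  /-- `♮`-KILL upstairs -/
  up2_kill : ∀ ψ : G F → ℂ, T5.IsCuspFn (upI (K' := F) E.𝔫) T5.trivType B.R'.r ψ →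
    (∀ χ : G F → ℂ, IsWFn B.𝔑₀ B.R'.r 2 B.o χ → T5.innerD B.R'.μ B.R'.F ψ χ = 0) →
    ∀ x : G F, T5.Rconv B.R'.μ E.φ₂ ψ x = 0
  /-- the scalars do not vanish on the class of `Φ` -/
  up_ne : ∀ C : EigData F, C.AgreeOut B.S' (eigOf Φ) → E.c₁ C ≠ 0 ∧ E.c₂ C ≠ 0
  -- the first base functions downstairs
  dn1_test : ∀ (n : QWt) (X : List (Gen F)), (∀ x ∈ X, x.Out B.S') →
    T5.IsTestFn E.𝔫 n.type (E.F₁ n X)
  dn1_ek : ∀ (n : QWt) (X : List (Gen F)), (∀ x ∈ X, x.Out B.S') →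
    T5.IsEK B.R.μ (E.F₁ n X) ∧ T5.IsEK B.R.μ (T5.adjointFn (E.F₁ n X))
  /-- the word acts downstairs through the base change of the eigen-data -/
  dn1_op : ∀ (n : QWt) (X : List (Gen F)), (∀ x ∈ X, x.Out B.S') →
    ∀ (χ : G ℚ → ℂ) (c : EigData ℚ) (C : EigData F),
      IsEigFnQ n E.𝔫 B.R.r B.u χ c → IsBCDataQ n c C B.S →
      ∀ x : G ℚ, T5.Rconv B.R.μ (E.F₁ n X) χ x
        = wordEv X C * T5.Rconv B.R.μ (E.F₁ n []) χ x
  /-- `R(F₁ n [])` preserves the invariant cusp functions of type `n` -/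
  dn1_wfn : ∀ (n : QWt) (ψ : G ℚ → ℂ), IsWFnQ n E.𝔫 B.R.r B.u ψ →
    IsWFnQ n E.𝔫 B.R.r B.u (T5.Rconv B.R.μ (E.F₁ n []) ψ)
  /-- `R(F₁ n [])` preserves the eigen-classes of type `n` -/
  dn1_class : ∀ (n : QWt) (ψ : G ℚ → ℂ) (c : EigData ℚ), IsEigFnQ n E.𝔫 B.R.r B.u ψ c →
    IsEigFnQ n E.𝔫 B.R.r B.u (T5.Rconv B.R.μ (E.F₁ n []) ψ) c
  /-- `R(F₁ n [])` commutes with the operators at `u` -/
  dn1_comm : ∀ (n : QWt) (ψ : G ℚ → ℂ), IsWFnQ n E.𝔫 B.R.r B.u ψ →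
    ∀ (H : Finset (G ℚ)) (z : G ℚ), IsIwCosetSystem B.u H → IsScalarUniformizerAt B.u z →
      (∀ x : G ℚ, T5.Rconv B.R.μ (E.F₁ n []) (iwOp B.u H ψ) x
        = iwOp B.u H (T5.Rconv B.R.μ (E.F₁ n []) ψ) x) ∧
      ∀ (k : ℤ) (x : G ℚ), T5.Rconv B.R.μ (E.F₁ n []) (shiftOp z k ψ) x
        = shiftOp z k (T5.Rconv B.R.μ (E.F₁ n []) ψ) x
  -- the second base functions downstairs
  dn2_test : ∀ n : QWt, T5.IsTestFn E.𝔫 n.type (E.f₂ n)
  dn2_ek : ∀ n : QWt, T5.IsEK B.R.μ (E.f₂ n) ∧ T5.IsEK B.R.μ (T5.adjointFn (E.f₂ n))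
  dn2_inv : ∀ n : QWt, IsUInv E.𝔫 1 (fun _ => B.u) (E.f₂ n)
  dn2_wfn : ∀ (n : QWt) (ψ : G ℚ → ℂ), IsWFnQ n E.𝔫 B.R.r B.u ψ →
    IsWFnQ n E.𝔫 B.R.r B.u (T5.Rconv B.R.μ (E.f₂ n) ψ)
  dn2_class : ∀ (n : QWt) (ψ : G ℚ → ℂ) (c : EigData ℚ), IsEigFnQ n E.𝔫 B.R.r B.u ψ c →
    IsEigFnQ n E.𝔫 B.R.r B.u (T5.Rconv B.R.μ (E.f₂ n) ψ) c
  dn2_comm : ∀ (n : QWt) (ψ : G ℚ → ℂ), IsWFnQ n E.𝔫 B.R.r B.u ψ →
    ∀ (H : Finset (G ℚ)) (z : G ℚ), IsIwCosetSystem B.u H → IsScalarUniformizerAt B.u z →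
      (∀ x : G ℚ, T5.Rconv B.R.μ (E.f₂ n) (iwOp B.u H ψ) x
        = iwOp B.u H (T5.Rconv B.R.μ (E.f₂ n) ψ) x) ∧
      ∀ (k : ℤ) (x : G ℚ), T5.Rconv B.R.μ (E.f₂ n) (shiftOp z k ψ) x
        = shiftOp z k (T5.Rconv B.R.μ (E.f₂ n) ψ) x
  /-- `♮`-KILL downstairs, type `n` -/
  dn2_kill : ∀ (n : QWt) (ψ : G ℚ → ℂ), T5.IsCuspFn E.𝔫 n.type B.R.r ψ →
    (∀ χ : G ℚ → ℂ, IsWFnQ n E.𝔫 B.R.r B.u χ → T5.innerD B.R.μ B.R.F ψ χ = 0) →
    ∀ x : G ℚ, T5.Rconv B.R.μ (E.f₂ n) ψ x = 0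
  -- the geometry of the families
  reg_up : ∀ (X : List (Gen F)) (k : ℤ) (m : ℕ), (∀ x ∈ X, x.Out B.S') → E.m₀ X ≤ m →
    T5.IsTwRegular B.s 2 B.k (E.up B X k m)
  reg_down : ∀ (n : QWt) (X : List (Gen F)) (k : ℤ) (m : ℕ), (∀ x ∈ X, x.Out B.S') →
    E.m₀ X ≤ m → T5.IsTwRegular (T5.AdelicAut.id ℚ) 1 ⊤ (E.down B n X k m)
  /-- the member upstairs and THE SUM of the two members downstairs are matched -/
  matched : ∀ (X : List (Gen F)) (k : ℤ) (m : ℕ), (∀ x ∈ X, x.Out B.S') → E.m₀ X ≤ m →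
    IsGlobMatch (B.comp E.𝔫) (E.up B X k m)
      (fun x => E.down B QWt.w0 X k m x + E.down B QWt.w1 X k m x)

end Pre

/-! ## 2. The node and the leaves of the second cut -/

section Leaves

variable (P : EKCond)
variable (F : Type) [Field F] [NumberField F]

/-- **NODE T7.L2Q.1.F0 = PRE over `ℚ` (construction + geometry).**  For a common part and one bad
element the pre-data exist.  See the header and `IsL2QPre732`; mirror of `H893.PreC`. -/
def PreQC732 : Prop :=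
  HasSqrtNegThree F → IsImagQuad F →
    ∀ Φ : HeckeEigensystem F ℂ, A0.IsCuspAdelicSph0 F Φ → ConstOnFibresQ Φ → P F Φ →
      ∀ B : L2QBase962 F, IsL2QBase962 Φ B → ∀ g : G F, B.IsBad g →
        ∃ E : L2QPre732 F, IsL2QPre732 Φ B g E

/-- **LEAF T7.L2Q.1.F1 = EKPROD-UP over `F`.**  The members upstairs are products of two
Eisenstein-killing test functions: `Φ₁ X` and `lsum Hg (regL (o 0) z' H' k m φ₂)`.
Proof: as `H893.EkProdUpC` (only the fields upstairs are used; `ℓ = 2`). -/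
def EkProdUpQC732 : Prop :=
  ∀ (Φ : HeckeEigensystem F ℂ) (B : L2QBase962 F), IsL2QBase962 Φ B →
    ∀ g : G F, B.IsBad g → ∀ E : L2QPre732 F, IsL2QPre732 Φ B g E →
    ∀ (X : List (Gen F)) (k : ℤ) (m : ℕ), (∀ x ∈ X, x.Out B.S') →
      IsEKProd (upI (K' := F) E.𝔫) B.R' (E.up B X k m)

/-- **LEAF T7.L2Q.1.F2 = EKPROD-DOWN over `ℚ`, both types.**  The members downstairs of type `n`
are products of two Eisenstein-killing test functions of type `n`: `F₁ n X` and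
`regL u z H k m (f₂ n)`.  Proof: as `H893.EkProdDownC`; the left translates are by elements which
are trivial at infinity, so the type is preserved. -/
def EkProdDownQC732 : Prop :=
  ∀ (Φ : HeckeEigensystem F ℂ) (B : L2QBase962 F), IsL2QBase962 Φ B →
    ∀ g : G F, B.IsBad g → ∀ E : L2QPre732 F, IsL2QPre732 Φ B g E →
    ∀ (n : QWt) (X : List (Gen F)) (k : ℤ) (m : ℕ), (∀ x ∈ X, x.Out B.S') →
      IsEKProdT n.type E.𝔫 B.R (E.down B n X k m)

/-- **LEAF T7.L2Q.1.F3 = OP-UP over `F`.**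
`R(φ' X k m) ψ = X(C) c₁(C) c₂(C) [U g U] Z^k 𝒰^m ψ` on the invariant eigenfunctions of the base
level, for EVERY choice of the coset systems.  Proof: as `H893.OpUpC`. -/
def OpUpQC732 : Prop :=
  ∀ (Φ : HeckeEigensystem F ℂ) (B : L2QBase962 F), IsL2QBase962 Φ B →
    ∀ g : G F, B.IsBad g → ∀ E : L2QPre732 F, IsL2QPre732 Φ B g E →
    ∀ (X : List (Gen F)) (k : ℤ) (m : ℕ), (∀ x ∈ X, x.Out B.S') →
    ∀ (ψ : G F → ℂ) (C : EigData F), IsEigFn B.𝔑₀ B.R'.r 2 B.o ψ C →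
    ∀ (Hg H : Finset (G F)) (z : G F), IsDblCosetSystem B.𝔑₀ g Hg →
      IsIwCosetSystem (B.o 0) H → IsScalarUniformizerAt (B.o 0) z →
      ∀ x : G F, T5.Rconv B.R'.μ (E.up B X k m) ψ x
        = wordEv X C * (E.c₁ C * E.c₂ C)
          * cosetOp Hg (shiftOp z k ((iwOp (B.o 0) H)^[m] ψ)) x

/-- **LEAF T7.L2Q.1.F4 = KILL-UP over `F`.**  `R(φ' X k m) ψ = 0` for the cusp functions
orthogonal to the invariant ones (`up2_kill`).  Proof: as `H893.KillUpC`. -/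
def KillUpQC732 : Prop :=
  ∀ (Φ : HeckeEigensystem F ℂ) (B : L2QBase962 F), IsL2QBase962 Φ B →
    ∀ g : G F, B.IsBad g → ∀ E : L2QPre732 F, IsL2QPre732 Φ B g E →
    ∀ (X : List (Gen F)) (k : ℤ) (m : ℕ), (∀ x ∈ X, x.Out B.S') →
    ∀ ψ : G F → ℂ, T5.IsCuspFn (upI (K' := F) E.𝔫) T5.trivType B.R'.r ψ →
      (∀ χ : G F → ℂ, IsWFn B.𝔑₀ B.R'.r 2 B.o χ → T5.innerD B.R'.μ B.R'.F ψ χ = 0) →
      ∀ x : G F, T5.Rconv B.R'.μ (E.up B X k m) ψ x = 0

/-- **LEAF T7.L2Q.1.F5 = OP-DOWN over `ℚ`, both types.**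
`R(f n X k m) ψ = R(F₁ n X) (Z^k 𝒰^m (R(f₂ n) ψ)) = X(Ĉ) R(f n [] 0 0) (Z^k 𝒰^m ψ)` on the
invariant eigenfunctions of type `n`, `Ĉ` a base change of the eigen-data in the sense of
`L2Q.IsBCDataQ n` (`dn1_op`, `dn2_class`, `dn2_comm`, `regL u z H 0 0 (f₂ n) = f₂ n`).
Proof: as `H893.OpDownC`. -/
def OpDownQC732 : Prop :=
  ∀ (Φ : HeckeEigensystem F ℂ) (B : L2QBase962 F), IsL2QBase962 Φ B →
    ∀ g : G F, B.IsBad g → ∀ E : L2QPre732 F, IsL2QPre732 Φ B g E →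
    ∀ (n : QWt) (X : List (Gen F)) (k : ℤ) (m : ℕ), (∀ x ∈ X, x.Out B.S') →
    ∀ (ψ : G ℚ → ℂ) (c : EigData ℚ) (C : EigData F),
      IsEigFnQ n E.𝔫 B.R.r B.u ψ c → IsBCDataQ n c C B.S →
    ∀ (H : Finset (G ℚ)) (z : G ℚ), IsIwCosetSystem B.u H → IsScalarUniformizerAt B.u z →
      ∀ x : G ℚ, T5.Rconv B.R.μ (E.down B n X k m) ψ x
        = wordEv X C
          * T5.Rconv B.R.μ (E.down B n [] 0 0) (shiftOp z k ((iwOp B.u H)^[m] ψ)) x

/-- **LEAF T7.L2Q.1.F6 = CLASS-DOWN over `ℚ`, both types.**  `R(f n [] 0 0) = R(F₁ n []) R(f₂ n)`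
preserves the eigen-classes of type `n` (`dn1_class`, `dn2_class`).  Proof: as
`H893.ClassDownC`. -/
def ClassDownQC732 : Prop :=
  ∀ (Φ : HeckeEigensystem F ℂ) (B : L2QBase962 F), IsL2QBase962 Φ B →
    ∀ g : G F, B.IsBad g → ∀ E : L2QPre732 F, IsL2QPre732 Φ B g E →
    ∀ (n : QWt) (ψ : G ℚ → ℂ) (c : EigData ℚ), IsEigFnQ n E.𝔫 B.R.r B.u ψ c →
      IsEigFnQ n E.𝔫 B.R.r B.u (T5.Rconv B.R.μ (E.down B n [] 0 0) ψ) c

/-- **LEAF T7.L2Q.1.F7 = COMM-DOWN over `ℚ`, both types.**  `R(f n [] 0 0)` commutes with the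
operators at `u` on the invariant cusp functions of type `n` (`dn1_comm`, `dn2_comm`,
`dn2_wfn`).  Proof: as `H893.CommDownC`. -/
def CommDownQC732 : Prop :=
  ∀ (Φ : HeckeEigensystem F ℂ) (B : L2QBase962 F), IsL2QBase962 Φ B →
    ∀ g : G F, B.IsBad g → ∀ E : L2QPre732 F, IsL2QPre732 Φ B g E →
    ∀ (n : QWt) (ψ : G ℚ → ℂ), IsWFnQ n E.𝔫 B.R.r B.u ψ →
    ∀ (H : Finset (G ℚ)) (z : G ℚ), IsIwCosetSystem B.u H → IsScalarUniformizerAt B.u z →
      (∀ x : G ℚ, T5.Rconv B.R.μ (E.down B n [] 0 0) (iwOp B.u H ψ) x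
        = iwOp B.u H (T5.Rconv B.R.μ (E.down B n [] 0 0) ψ) x) ∧
      ∀ (k : ℤ) (x : G ℚ), T5.Rconv B.R.μ (E.down B n [] 0 0) (shiftOp z k ψ) x
        = shiftOp z k (T5.Rconv B.R.μ (E.down B n [] 0 0) ψ) x

/-- **LEAF T7.L2Q.1.F8 = KILL-DOWN over `ℚ`, both types.**  `R(f n X k m) ψ = 0` for the cusp
functions of type `n` orthogonal to the invariant ones (`dn2_kill`).  Proof: as
`H893.KillDownC`. -/
def KillDownQC732 : Prop :=
  ∀ (Φ : HeckeEigensystem F ℂ) (B : L2QBase962 F), IsL2QBase962 Φ B →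
    ∀ g : G F, B.IsBad g → ∀ E : L2QPre732 F, IsL2QPre732 Φ B g E →
    ∀ (n : QWt) (X : List (Gen F)) (k : ℤ) (m : ℕ), (∀ x ∈ X, x.Out B.S') →
    ∀ ψ : G ℚ → ℂ, T5.IsCuspFn E.𝔫 n.type B.R.r ψ →
      (∀ χ : G ℚ → ℂ, IsWFnQ n E.𝔫 B.R.r B.u χ → T5.innerD B.R.μ B.R.F ψ χ = 0) →
      ∀ x : G ℚ, T5.Rconv B.R.μ (E.down B n X k m) ψ x = 0

end Leaves

/-! ## Appendix: the equation lemmas of the definitions of this file are realised HERE

The equation lemmas (`eq_1`, `eq_def`, `eq_unfold`) of a definition are generated on demand, in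
the module which first uses `unfold` / `rw` / `simp` with it; citing them here generates them
once, upstream of every user (same device as the appendix of `T7/Comparison.lean` v0.1 of
helper797).  No statement is involved. -/

theorem eqns_realised_supplyQFam732 : True := by
  have _h0_0 := @L2QPre732.up.eq_1
  have _h0_1 := @L2QPre732.up.eq_def
  have _h0_2 := @L2QPre732.up.eq_unfold
  have _h1_0 := @L2QPre732.down.eq_1
  have _h1_1 := @L2QPre732.down.eq_def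
  have _h1_2 := @L2QPre732.down.eq_unfold
  have _h2_0 := @L2QPre732.toFam.eq_1
  have _h2_1 := @L2QPre732.toFam.eq_def
  have _h2_2 := @L2QPre732.toFam.eq_unfold
  have _h3_0 := @PreQC732.eq_1
  have _h3_1 := @PreQC732.eq_def
  have _h3_2 := @PreQC732.eq_unfold
  have _h4_0 := @EkProdUpQC732.eq_1
  have _h4_1 := @EkProdUpQC732.eq_def
  have _h4_2 := @EkProdUpQC732.eq_unfold
  have _h5_0 := @EkProdDownQC732.eq_1
  have _h5_1 := @EkProdDownQC732.eq_def
  have _h5_2 := @EkProdDownQC732.eq_unfold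
  have _h6_0 := @OpUpQC732.eq_1
  have _h6_1 := @OpUpQC732.eq_def
  have _h6_2 := @OpUpQC732.eq_unfold
  have _h7_0 := @KillUpQC732.eq_1
  have _h7_1 := @KillUpQC732.eq_def
  have _h7_2 := @KillUpQC732.eq_unfold
  have _h8_0 := @OpDownQC732.eq_1
  have _h8_1 := @OpDownQC732.eq_def
  have _h8_2 := @OpDownQC732.eq_unfold
  have _h9_0 := @ClassDownQC732.eq_1
  have _h9_1 := @ClassDownQC732.eq_def
  have _h9_2 := @ClassDownQC732.eq_unfold
  have _h10_0 := @CommDownQC732.eq_1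
  have _h10_1 := @CommDownQC732.eq_def
  have _h10_2 := @CommDownQC732.eq_unfold
  have _h11_0 := @KillDownQC732.eq_1
  have _h11_1 := @KillDownQC732.eq_def
  have _h11_2 := @KillDownQC732.eq_unfold
  trivial

end Fermat.Agent.LT.T7.H732

end
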