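import Mathlib
import Fermat.Agent.LT.T7.H962.SupplyQTop
import Fermat.Agent.LT.T7.H732.SupplyQFamSpec

/-!
# Row LT, tower T7, node T7.L2Q.1.F `FamQC962` (quadratic step): SECOND CUT -- proved tops
(helper732, registry row 2262; mirror of helper893 `SupplyFamTop.lean`)

OFF-MAIN.  Every proof is complete, nothing assumed.  ADDITIVE.

    famQC_of732 : PreQC732 P F → EkProdUpQC732 F → EkProdDownQC732 F → OpUpQC732 F
                    → KillUpQC732 F → OpDownQC732 F → ClassDownQC732 F → CommDownQC732 F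
                    → KillDownQC732 F → H962.FamQC962 P F
    supplyQC_of_leaves732 : H962.SetupQC962 F → H893.ProjC F → H962.ProjQC962 w0
                    → H962.ProjQC962 w1 → PreQC732 P F → (8 leaves) → L2Q.SupplyQC P F

`H962.FamQC962`, `L2Q.SupplyQC` VERBATIM (helper962@39bd27364, helper826@4ba4a298a).
-/

set_option autoImplicit false

open AutomorphicForm IsDedekindDomain NumberField MeasureTheory
open scoped ComplexConjugate

noncomputable section

namespace Fermat.Agent.LT.T7.H732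

open Fermat.Agent.LT.H556 Fermat.Agent.LT.H556.A0 Fermat.Agent.LT.T7 Fermat.Agent.LT.T7.L2Q
  Fermat.Agent.LT.T7.H893 Fermat.Agent.LT.T7.H962

attribute [local instance] Fermat.Agent.LT.T5.instMeasurableSpaceG

section Top

variable {P : EKCond}
variable {F : Type} [Field F] [NumberField F]

/-- **The families of pre-data are good**, from the eight bookkeeping leaves. -/
theorem isL2QFam_toFam732 {Φ : HeckeEigensystem F ℂ} {B : L2QBase962 F}
    (hB : IsL2QBase962 Φ B) {g : G F} (hg : B.IsBad g) {E : L2QPre732 F}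
    (hE : IsL2QPre732 Φ B g E)
    (h1 : EkProdUpQC732 F) (h2 : EkProdDownQC732 F) (h3 : OpUpQC732 F) (h4 : KillUpQC732 F)
    (h5 : OpDownQC732 F) (h6 : ClassDownQC732 F) (h7 : CommDownQC732 F)
    (h8 : KillDownQC732 F) :
    IsL2QFam962 Φ B g (E.toFam B) where
  level_ne := hE.level_ne
  level_g := hE.level_g
  mem_S'_g := hE.mem_S'_g
  u_level := hE.u_level
  ekprod_up := fun X k m hX => h1 Φ B hB g hg E hE X k m hX
  ekprod_down := fun n X k m hX => h2 Φ B hB g hg E hE n X k m hX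
  reg_up := hE.reg_up
  reg_down := hE.reg_down
  matched := hE.matched
  base_ne := fun C hC => mul_ne_zero (hE.up_ne C hC).1 (hE.up_ne C hC).2
  op_up := fun X k m hX ψ C hψ Hg H z hHg hH hz x =>
    h3 Φ B hB g hg E hE X k m hX ψ C hψ Hg H z hHg hH hz x
  kill_up := fun X k m hX ψ hψ hperp x => h4 Φ B hB g hg E hE X k m hX ψ hψ hperp x
  op_down := fun n X k m hX ψ c C hψ hbc H z hH hz x =>
    h5 Φ B hB g hg E hE n X k m hX ψ c C hψ hbc H z hH hz x
  class_down := fun n ψ c hψ => h6 Φ B hB g hg E hE n ψ c hψ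
  comm_down := fun n ψ hψ H z hH hz => h7 Φ B hB g hg E hE n ψ hψ H z hH hz
  kill_down := fun n X k m hX ψ hψ hperp x => h8 Φ B hB g hg E hE n X k m hX ψ hψ hperp x

/-- **THE TOP OF THE SECOND CUT, quadratic step**: the families for one bad element from the
pre-data and the eight bookkeeping leaves. -/
theorem famQC_of732 (h0 : PreQC732 P F)
    (h1 : EkProdUpQC732 F) (h2 : EkProdDownQC732 F) (h3 : OpUpQC732 F) (h4 : KillUpQC732 F)
    (h5 : OpDownQC732 F) (h6 : ClassDownQC732 F) (h7 : CommDownQC732 F)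
    (h8 : KillDownQC732 F) : FamQC962 P F := by
  intro h3' hquad Φ hΦ hconst hPΦ B hB g hg
  obtain ⟨E, hE⟩ := h0 h3' hquad Φ hΦ hconst hPΦ B hB g hg
  exact ⟨E.toFam B, isL2QFam_toFam732 hB hg hE h1 h2 h3 h4 h5 h6 h7 h8⟩

/-- **THE SUPPLY OVER `ℚ` from the leaves of the two cuts** (first cut: helper962). -/
theorem supplyQC_of_leaves732 (hS : SetupQC962 F) (hP' : H893.ProjC F)
    (hP0 : ProjQC962 QWt.w0) (hP1 : ProjQC962 QWt.w1) (h0 : PreQC732 P F)
    (h1 : EkProdUpQC732 F) (h2 : EkProdDownQC732 F) (h3 : OpUpQC732 F) (h4 : KillUpQC732 F)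
    (h5 : OpDownQC732 F) (h6 : ClassDownQC732 F) (h7 : CommDownQC732 F)
    (h8 : KillDownQC732 F) : L2Q.SupplyQC P F :=
  supplyQC_of962 hS hP' hP0 hP1 (famQC_of732 h0 h1 h2 h3 h4 h5 h6 h7 h8)

end Top

end Fermat.Agent.LT.T7.H732

end
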