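import Mathlib
import Fermat.Agent.LT.T7.H60.SupplyQTop
import Fermat.Agent.LT.T7.H732.SupplyQFamTop

/-!
# Row LT, tower T7, node T7.L2Q.1 `SupplyQC`: the SECOND CUT on the first cut of helper60
(helper732, registry rows 2262 / 2322)

OFF-MAIN.  Definitions, ONE frozen node, PROVED tops.  No hole, nothing assumed.  ADDITIVE.

The first cut of record of `L2Q.SupplyQC` is the one of the owner of the node, helper60
(`T7/H60/SupplyQSpec.lean`, sha256 945eb304, helper60@6e0b580ad): its common part `IsL2QBase` has
the field `under_exact` (`S` is EXACTLY the set of the primes under `S'`).  Without this field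
the pre-data cannot exist in general: the relation `L2Q.IsBCDataQ n c C S` says nothing at the
primes of `S`, a word may live at a place outside `S'` over a prime of `S`, and then `dn1_op`
would hold for arbitrary values of `C` at that place.  So:

* the 8 bookkeeping LEAVES of `SupplyQFamSpec.lean` (rows 2314-2321) are kept AS THEY ARE (they
  are implications from the pre-data, true for every common part);
* THE NODE is `PreQ60C732` = the pre-data exist for the common parts OF HELPER60
  (`PreQC732`, which quantifies over the larger class `H962.IsL2QBase962`, is NOT used);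
* `famQC60_of732 : PreQ60C732 P F → 8 leaves → L2Q.H60.FamQC P F` and the supply in the stable
  form `supplyQSC_of_leaves732 : … → L2Q.H60.SupplyQSC P F` are PROVED here, through the
  comparison `isL2QBase962_of60_732` of the two common parts (the only point: `fibre`, from the
  form with prime numbers to the form with `PlaceOver`).
-/

set_option autoImplicit false

open AutomorphicForm IsDedekindDomain NumberField MeasureTheory
open scoped ComplexConjugate

noncomputable section

namespace Fermat.Agent.LT.T7.H732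

open Fermat.Agent.LT.H556 Fermat.Agent.LT.H556.A0 Fermat.Agent.LT.T7 Fermat.Agent.LT.T7.L2Q
  Fermat.Agent.LT.T7.H893 Fermat.Agent.LT.T7.H962

attribute [local instance] Fermat.Agent.LT.T5.instMeasurableSpaceG

/-! ## 1. Prime numbers in prime ideals -/

/-- A prime ideal which contains a natural number `n ≥ 2` contains a prime number. -/
theorem exists_prime_natCast_mem732 {R : Type*} [CommRing R] (I : Ideal R) [I.IsPrime] :
    ∀ n : ℕ, 2 ≤ n → ((n : ℕ) : R) ∈ I → ∃ p : ℕ, p.Prime ∧ ((p : ℕ) : R) ∈ I := by
  intro n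
  induction n using Nat.strong_induction_on with
  | _ n ih =>
    intro hn hmem
    by_cases hp : n.Prime
    · exact ⟨n, hp, hmem⟩
    · have hn1 : n ≠ 1 := by omega
      have hq : (n.minFac).Prime := Nat.minFac_prime hn1
      obtain ⟨m, hm⟩ := Nat.minFac_dvd n
      have hmul : ((n.minFac : ℕ) : R) * ((m : ℕ) : R) ∈ I := by
        rw [← Nat.cast_mul, ← hm]
        exact hmem
      rcases (Ideal.IsPrime.mem_or_mem inferInstance hmul) with h | h
      · exact ⟨n.minFac, hq, h⟩
      · have hq2 : 2 ≤ n.minFac := hq.two_le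
        have hm0 : m ≠ 0 := by
          rintro rfl
          rw [mul_zero] at hm
          omega
        have hm1 : m ≠ 1 := by
          rintro rfl
          rw [mul_one] at hm
          exact hp (hm ▸ hq)
        have hlt : m < n := by
          have : m * 2 ≤ n.minFac * m := by
            rw [mul_comm n.minFac m]
            exact Nat.mul_le_mul_left m hq2
          omega
        exact ih m hlt (by omega) h

/-- A finite place of `ℚ` contains a prime number. -/
theorem exists_prime_mem_place732 (v : HeightOneSpectrum (𝓞 ℚ)) :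
    ∃ p : ℕ, p.Prime ∧ ((p : ℕ) : 𝓞 ℚ) ∈ v.asIdeal := by
  have hprime : v.asIdeal.IsPrime := v.isPrime
  have h0 : Ideal.absNorm v.asIdeal ≠ 0 := by
    rw [Ne, Ideal.absNorm_eq_zero_iff]
    exact v.ne_bot
  have h1 : Ideal.absNorm v.asIdeal ≠ 1 := by
    rw [Ne, Ideal.absNorm_eq_one_iff]
    exact hprime.ne_top
  have hmem : ((Ideal.absNorm v.asIdeal : ℕ) : 𝓞 ℚ) ∈ v.asIdeal := Ideal.absNorm_mem v.asIdeal
  exact exists_prime_natCast_mem732 v.asIdeal _ (by omega) hmem

section Compare

variable {F : Type} [Field F] [NumberField F]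

/-- A prime number of a place of `ℚ` lies in every place of `F` over it. -/
theorem natCast_mem_of_placeOver732 {v : HeightOneSpectrum (𝓞 ℚ)} {w : HeightOneSpectrum (𝓞 F)}
    (h : PlaceOver ℚ F v w) {p : ℕ} (hp : ((p : ℕ) : 𝓞 ℚ) ∈ v.asIdeal) :
    ((p : ℕ) : 𝓞 F) ∈ w.asIdeal := by
  refine (h ((p : ℕ) : 𝓞 ℚ) ((p : ℕ) : 𝓞 F) ?_).1 hp
  simp

/-! ## 2. The two common parts -/

/-- The common part of helper60 as a common part of helper962 (the same data). -/
def toBase962_732 (B : L2Q.H60.L2QBase F) : L2QBase962 F where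
  s := B.s
  k := B.k
  R := B.R
  R' := B.R'
  𝔑₀ := B.𝔑₀
  S' := B.S'
  S := B.S
  u := B.u
  o := B.o

/-- The `g`-part of helper962 as a `g`-part of helper60 (the same data). -/
def toFam60_732 (Fm : L2QFam962 F) : L2Q.H60.L2QFam F where
  𝔫 := Fm.𝔫
  c := Fm.c
  φ' := Fm.φ'
  f := Fm.f
  m₀ := Fm.m₀

/-- A good common part of helper60 is a good common part of helper962. -/
theorem isL2QBase962_of60_732 {Φ : HeckeEigensystem F ℂ} {B : L2Q.H60.L2QBase F}
    (hB : L2Q.H60.IsL2QBase Φ B) : IsL2QBase962 Φ (toBase962_732 B) where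
  cyc := hB.cyc
  base := hB.base
  frame := hB.frame
  frame' := hB.frame'
  aut := hB.aut
  level_le := hB.level_le
  mem_S' := hB.mem_S'
  under := hB.under
  const := hB.const
  orbit_rel := hB.orbit_rel
  orbit_ne := hB.orbit_ne
  orbit_over := hB.orbit_over
  orbit_level := hB.orbit_level
  orbit_good := hB.orbit_good
  base_level := hB.base_level
  orbit_all := hB.orbit_all
  fibre := fun v w w' hw hw' hS => by
    obtain ⟨p, hp, hpv⟩ := exists_prime_mem_place732 v
    exact hB.fibre p hp w w' (natCast_mem_of_placeOver732 hw hpv)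
      (natCast_mem_of_placeOver732 hw' hpv) hS

/-- A good `g`-part for the common part of helper962 is a good `g`-part for helper60. -/
theorem isL2QFam60_of962_732 {Φ : HeckeEigensystem F ℂ} {B : L2Q.H60.L2QBase F} {g : G F}
    {Fm : L2QFam962 F} (h : IsL2QFam962 Φ (toBase962_732 B) g Fm) :
    L2Q.H60.IsL2QFam Φ B g (toFam60_732 Fm) where
  level_ne := h.level_ne
  level_g := h.level_g
  mem_S'_g := h.mem_S'_g
  u_level := h.u_level
  ekprod_up := h.ekprod_up
  ekprod_down := h.ekprod_down
  reg_up := h.reg_up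
  reg_down := h.reg_down
  matched := h.matched
  base_ne := h.base_ne
  op_up := h.op_up
  kill_up := h.kill_up
  op_down := h.op_down
  class_down := h.class_down
  comm_down := h.comm_down
  kill_down := h.kill_down

end Compare

/-! ## 3. The node and the tops -/

section Node

variable (P : EKCond)
variable (F : Type) [Field F] [NumberField F]

/-- **NODE T7.L2Q.1.F0 = PRE over `ℚ` (construction + geometry), on the first cut of helper60.**
For a common part of helper60 (`S` = exactly the primes under `S'`) and one bad element the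
pre-data of `SupplyQFamSpec.lean` exist.  Mirror of `H893.PreC`. -/
def PreQ60C732 : Prop :=
  HasSqrtNegThree F → IsImagQuad F →
    ∀ Φ : HeckeEigensystem F ℂ, A0.IsCuspAdelicSph0 F Φ → ConstOnFibresQ Φ → P F Φ →
      ∀ B : L2Q.H60.L2QBase F, L2Q.H60.IsL2QBase Φ B → ∀ g : G F, B.IsBad g →
        ∃ E : L2QPre732 F, IsL2QPre732 Φ (toBase962_732 B) g E

variable {P F}

/-- The node for the larger class of common parts gives the node of record. -/
theorem preQ60C_of_preQC732 (h : PreQC732 P F) : PreQ60C732 P F :=
  fun h3 hq Φ hΦ hc hP B hB g hg =>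
    h h3 hq Φ hΦ hc hP (toBase962_732 B) (isL2QBase962_of60_732 hB) g hg

/-- **THE TOP OF THE SECOND CUT on the first cut of helper60**: the node `L2Q.H60.FamQC` from the
pre-data and the eight bookkeeping leaves. -/
theorem famQC60_of732 (h0 : PreQ60C732 P F)
    (h1 : EkProdUpQC732 F) (h2 : EkProdDownQC732 F) (h3 : OpUpQC732 F) (h4 : KillUpQC732 F)
    (h5 : OpDownQC732 F) (h6 : ClassDownQC732 F) (h7 : CommDownQC732 F)
    (h8 : KillDownQC732 F) : L2Q.H60.FamQC P F := by
  intro h3' hquad Φ hΦ hconst hPΦ B hB g hg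
  obtain ⟨E, hE⟩ := h0 h3' hquad Φ hΦ hconst hPΦ B hB g hg
  exact ⟨toFam60_732 (E.toFam (toBase962_732 B)),
    isL2QFam60_of962_732
      (isL2QFam_toFam732 (isL2QBase962_of60_732 hB) hg hE h1 h2 h3 h4 h5 h6 h7 h8)⟩

/-- **THE STABLE SUPPLY OVER `ℚ` from the leaves of the two cuts** (first cut: helper60). -/
theorem supplyQSC_of_leaves732 (hS : L2Q.H60.SetupQC F) (hP' : H893.ProjC F)
    (hP0 : H893.ProjC ℚ) (hP1 : L2Q.H60.ProjW1C) (h0 : PreQ60C732 P F)
    (h1 : EkProdUpQC732 F) (h2 : EkProdDownQC732 F) (h3 : OpUpQC732 F) (h4 : KillUpQC732 F)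
    (h5 : OpDownQC732 F) (h6 : ClassDownQC732 F) (h7 : CommDownQC732 F)
    (h8 : KillDownQC732 F) : L2Q.H60.SupplyQSC P F :=
  L2Q.H60.supplyQSC_of60 hS hP' hP0 hP1 (famQC60_of732 h0 h1 h2 h3 h4 h5 h6 h7 h8)

theorem eqns_realised_supplyQFam60_732 : True := by
  have _h1 := @PreQ60C732.eq_1
  have _h2 := @PreQ60C732.eq_def
  have _h3 := @PreQ60C732.eq_unfold
  have _h4 := @toBase962_732.eq_1
  have _h5 := @toBase962_732.eq_def
  have _h6 := @toBase962_732.eq_unfold
  have _h7 := @toFam60_732.eq_1
  have _h8 := @toFam60_732.eq_def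
  have _h9 := @toFam60_732.eq_unfold
  trivial

end Node

end Fermat.Agent.LT.T7.H732

end
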