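import Mathlib
import Fermat.Agent.LT.T7.H893.SupplyPreSpec
import Fermat.Agent.LT.T7.H732.SupplyQFam60

/-!
# Row LT, tower T7, node T7.L2Q.1.F0 `PreQ60C732` (quadratic step `F = ℚ(√-3)` over `ℚ`):
# THIRD CUT -- Spec (helper732, registry row 2322; mirror of helper893 `SupplyPreSpec.lean`)

OFF-MAIN.  Definitions and ONE frozen node only (the proved top is `SupplyQPreTop.lean`).  No
hole, nothing assumed.  ADDITIVE (new names only, all suffixed `732`).  Vocabulary: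
`T7/H732/SupplyQFamSpec.lean` + `SupplyQFam60.lean` (second cut), `T7/H893/SupplyPreSpec.lean`
(helper893@8105d61ac, sha256 37db5856: the two support leaves `H893.RegSuppC`, `H893.RegSupp0C`
are USED AS THEY ARE, for the fields `F` and `ℚ`), `T5/SpecZ.lean` + `T5/H32/RegConv.lean`
(helper32, closed), byte-identical copies.

    preQ60C_of_geo732 : PreGeoQ60C732 P F → H893.RegSuppC F → H893.RegSupp0C ℚ → PreQ60C732 P F

## The cut: REGULARITY is split off

`IsL2QPre732` = `IsL2QPreOp732` (the 31 fields on levels, coset systems, test functions,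
operators) + `reg_up`, `reg_down`, `matched`.  The two regularity fields follow from SUPPORT
conditions on the base functions (`IsL2QPreSupp732`: Iwahori along the orbit, compact outside the
orbit; the `K_∞`-type plays no role) by the closed device of T5 (`T5.H32.exists_depth_conv32`,
helper32) and the two bookkeeping leaves of helper893:

* **`H893.RegSuppC F`** (leaf of helper893, row of helper893; NO new leaf): upstairs.
* **`H893.RegSupp0C ℚ`** (leaf of helper893; NO new leaf): downstairs, for both types.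
* **`PreGeoQ60C732 P F`** (NODE = construction + matching): pre-data with `IsL2QPreOp732`,
  `IsL2QPreSupp732` and `matched` (the member upstairs against THE SUM of the two members
  downstairs) from SOME depth on.  The depth of the pre-data is then replaced by the maximum of
  the depths (the families do not depend on it).
-/

set_option autoImplicit false

open AutomorphicForm IsDedekindDomain NumberField MeasureTheory
open scoped ComplexConjugate

noncomputable section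

namespace Fermat.Agent.LT.T7.H732

open Fermat.Agent.LT.H556 Fermat.Agent.LT.H556.A0 Fermat.Agent.LT.T7 Fermat.Agent.LT.T7.L2Q
  Fermat.Agent.LT.T7.H893 Fermat.Agent.LT.T7.H962

attribute [local instance] Fermat.Agent.LT.T5.instMeasurableSpaceG

section Pre

variable {F : Type} [Field F] [NumberField F]

/-- **THE OPERATOR PART OF THE PROPERTIES OF THE PRE-DATA**, quadratic step: the fields of
`IsL2QPre732` except `reg_up`, `reg_down`, `matched` (same names, same statements). -/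
structure IsL2QPreOp732 (Φ : HeckeEigensystem F ℂ) (B : L2QBase962 F) (g : G F)
    (E : L2QPre732 F) : Prop where
  -- levels
  level_ne : E.𝔫 ≠ ⊥
  level_g : upI (K' := F) E.𝔫 ≤ B.𝔑₀
  mem_S'_g : ∀ w : HeightOneSpectrum (𝓞 F), w ∈ B.S' ↔ w.asIdeal ∣ upI (K' := F) E.𝔫
  u_level : B.u.asIdeal ∣ E.𝔫
  -- coset systems
  sysg : IsDblCosetSystem B.𝔑₀ g E.Hg
  sys' : IsIwCosetSystem (B.o 0) E.H'
  unif' : IsScalarUniformizerAt (B.o 0) E.z'
  sys : IsIwCosetSystem B.u E.H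
  unif : IsScalarUniformizerAt B.u E.z
  -- the first base function upstairs
  up1_test : ∀ X : List (Gen F), (∀ x ∈ X, x.Out B.S') →
    T5.IsTestFn (upI (K' := F) E.𝔫) T5.trivType (E.Φ₁ X)
  up1_ek : ∀ X : List (Gen F), (∀ x ∈ X, x.Out B.S') →
    T5.IsEK B.R'.μ (E.Φ₁ X) ∧ T5.IsEK B.R'.μ (T5.adjointFn (E.Φ₁ X))
  /-- the scalar of `Φ₁ X` on the invariant eigenfunctions of the base level -/
  up1_op : ∀ X : List (Gen F), (∀ x ∈ X, x.Out B.S') →
    ∀ (χ : G F → ℂ) (C : EigData F), IsEigFn B.𝔑₀ B.R'.r 2 B.o χ C →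
      ∀ x : G F, T5.Rconv B.R'.μ (E.Φ₁ X) χ x = wordEv X C * E.c₁ C * χ x
  -- the second base function upstairs
  up2_test : T5.IsTestFn (upI (K' := F) E.𝔫) T5.trivType E.φ₂
  up2_ek : T5.IsEK B.R'.μ E.φ₂ ∧ T5.IsEK B.R'.μ (T5.adjointFn E.φ₂)
  up2_inv : IsUInv B.𝔑₀ 2 B.o E.φ₂
  /-- the scalar of `φ₂` on the invariant eigenfunctions of the base level -/
  up2_op : ∀ (ψ : G F → ℂ) (C : EigData F), IsEigFn B.𝔑₀ B.R'.r 2 B.o ψ C →
    ∀ x : G F, T5.Rconv B.R'.μ E.φ₂ ψ x = E.c₂ C * ψ x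
  /-- `♮`-KILL upstairs -/
  up2_kill : ∀ ψ : G F → ℂ, T5.IsCuspFn (upI (K' := F) E.𝔫) T5.trivType B.R'.r ψ →
    (∀ χ : G F → ℂ, IsWFn B.𝔑₀ B.R'.r 2 B.o χ → T5.innerD B.R'.μ B.R'.F ψ χ = 0) →
    ∀ x : G F, T5.Rconv B.R'.μ E.φ₂ ψ x = 0
  /-- the scalars do not vanish on the class of `Φ` -/
  up_ne : ∀ C : EigData F, C.AgreeOut B.S' (eigOf Φ) → E.c₁ C ≠ 0 ∧ E.c₂ C ≠ 0
  -- the first base functions downstairs
  dn1_test : ∀ (n : QWt) (X : List (Gen F)), (∀ x ∈ X, x.Out B.S') →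
    T5.IsTestFn E.𝔫 n.type (E.F₁ n X)
  dn1_ek : ∀ (n : QWt) (X : List (Gen F)), (∀ x ∈ X, x.Out B.S') →
    T5.IsEK B.R.μ (E.F₁ n X) ∧ T5.IsEK B.R.μ (T5.adjointFn (E.F₁ n X))
  /-- the word acts downstairs through the base change of the eigen-data -/
  dn1_op : ∀ (n : QWt) (X : List (Gen F)), (∀ x ∈ X, x.Out B.S') →
    ∀ (χ : G ℚ → ℂ) (c : EigData ℚ) (C : EigData F),
      IsEigFnQ n E.𝔫 B.R.r B.u χ c → IsBCDataQ n c C B.S →
      ∀ x : G ℚ, T5.Rconv B.R.μ (E.F₁ n X) χ x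
        = wordEv X C * T5.Rconv B.R.μ (E.F₁ n []) χ x
  /-- `R(F₁ n [])` preserves the invariant cusp functions of type `n` -/
  dn1_wfn : ∀ (n : QWt) (ψ : G ℚ → ℂ), IsWFnQ n E.𝔫 B.R.r B.u ψ →
    IsWFnQ n E.𝔫 B.R.r B.u (T5.Rconv B.R.μ (E.F₁ n []) ψ)
  /-- `R(F₁ n [])` preserves the eigen-classes of type `n` -/
  dn1_class : ∀ (n : QWt) (ψ : G ℚ → ℂ) (c : EigData ℚ), IsEigFnQ n E.𝔫 B.R.r B.u ψ c →
    IsEigFnQ n E.𝔫 B.R.r B.u (T5.Rconv B.R.μ (E.F₁ n []) ψ) c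
  /-- `R(F₁ n [])` commutes with the operators at `u` -/
  dn1_comm : ∀ (n : QWt) (ψ : G ℚ → ℂ), IsWFnQ n E.𝔫 B.R.r B.u ψ →
    ∀ (H : Finset (G ℚ)) (z : G ℚ), IsIwCosetSystem B.u H → IsScalarUniformizerAt B.u z →
      (∀ x : G ℚ, T5.Rconv B.R.μ (E.F₁ n []) (iwOp B.u H ψ) x
        = iwOp B.u H (T5.Rconv B.R.μ (E.F₁ n []) ψ) x) ∧
      ∀ (k : ℤ) (x : G ℚ), T5.Rconv B.R.μ (E.F₁ n []) (shiftOp z k ψ) x
        = shiftOp z k (T5.Rconv B.R.μ (E.F₁ n []) ψ) x
  -- the second base functions downstairs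
  dn2_test : ∀ n : QWt, T5.IsTestFn E.𝔫 n.type (E.f₂ n)
  dn2_ek : ∀ n : QWt, T5.IsEK B.R.μ (E.f₂ n) ∧ T5.IsEK B.R.μ (T5.adjointFn (E.f₂ n))
  dn2_inv : ∀ n : QWt, IsUInv E.𝔫 1 (fun _ => B.u) (E.f₂ n)
  dn2_wfn : ∀ (n : QWt) (ψ : G ℚ → ℂ), IsWFnQ n E.𝔫 B.R.r B.u ψ →
    IsWFnQ n E.𝔫 B.R.r B.u (T5.Rconv B.R.μ (E.f₂ n) ψ)
  dn2_class : ∀ (n : QWt) (ψ : G ℚ → ℂ) (c : EigData ℚ), IsEigFnQ n E.𝔫 B.R.r B.u ψ c →
    IsEigFnQ n E.𝔫 B.R.r B.u (T5.Rconv B.R.μ (E.f₂ n) ψ) c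
  dn2_comm : ∀ (n : QWt) (ψ : G ℚ → ℂ), IsWFnQ n E.𝔫 B.R.r B.u ψ →
    ∀ (H : Finset (G ℚ)) (z : G ℚ), IsIwCosetSystem B.u H → IsScalarUniformizerAt B.u z →
      (∀ x : G ℚ, T5.Rconv B.R.μ (E.f₂ n) (iwOp B.u H ψ) x
        = iwOp B.u H (T5.Rconv B.R.μ (E.f₂ n) ψ) x) ∧
      ∀ (k : ℤ) (x : G ℚ), T5.Rconv B.R.μ (E.f₂ n) (shiftOp z k ψ) x
        = shiftOp z k (T5.Rconv B.R.μ (E.f₂ n) ψ) x
  /-- `♮`-KILL downstairs, type `n` -/
  dn2_kill : ∀ (n : QWt) (ψ : G ℚ → ℂ), T5.IsCuspFn E.𝔫 n.type B.R.r ψ →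
    (∀ χ : G ℚ → ℂ, IsWFnQ n E.𝔫 B.R.r B.u χ → T5.innerD B.R.μ B.R.F ψ χ = 0) →
    ∀ x : G ℚ, T5.Rconv B.R.μ (E.f₂ n) ψ x = 0

/-- **THE SUPPORTS OF THE BASE FUNCTIONS**, quadratic step: Iwahori along the orbit, compact
outside it (upstairs: the orbit `o 0, o 1`; downstairs: the place `u`, both types). -/
structure IsL2QPreSupp732 (B : L2QBase962 F) (E : L2QPre732 F) : Prop where
  up1_supp : ∀ X : List (Gen F), (∀ x ∈ X, x.Out B.S') →
    ∃ C : Set (G F), IsCompact C ∧ T5.H32.IsIwSupported32 2 B.o C (E.Φ₁ X)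
  up2_supp : ∃ C : Set (G F), IsCompact C ∧ T5.H32.IsIwSupported32 2 B.o C E.φ₂
  dn1_supp : ∀ (n : QWt) (X : List (Gen F)), (∀ x ∈ X, x.Out B.S') →
    ∃ C : Set (G ℚ), IsCompact C ∧ T5.H32.IsIwSupported32 1 (fun _ => B.u) C (E.F₁ n X)
  dn2_supp : ∀ n : QWt,
    ∃ C : Set (G ℚ), IsCompact C ∧ T5.H32.IsIwSupported32 1 (fun _ => B.u) C (E.f₂ n)

/-- The SUM of the two members downstairs (the function matched with the member upstairs). -/
def L2QPre732.dsum (B : L2QBase962 F) (E : L2QPre732 F) (X : List (Gen F)) (k : ℤ) (m : ℕ) :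
    G ℚ → ℂ :=
  fun x => E.down B QWt.w0 X k m x + E.down B QWt.w1 X k m x

end Pre

/-! ## The node -/

section Node

variable (P : EKCond)
variable (F : Type) [Field F] [NumberField F]

/-- **NODE T7.L2Q.1.G0 = PRE-GEO over `ℚ` (construction + matching), on the first cut of
helper60.**  For a common part of helper60 and one bad element there are pre-data with the
operator properties, the supports, and MATCHED families (the member upstairs against the sum of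
the two members downstairs) from some depth on.  Mirror of `H893.PreGeoC`. -/
def PreGeoQ60C732 : Prop :=
  HasSqrtNegThree F → IsImagQuad F →
    ∀ Φ : HeckeEigensystem F ℂ, A0.IsCuspAdelicSph0 F Φ → ConstOnFibresQ Φ → P F Φ →
      ∀ B : L2Q.H60.L2QBase F, L2Q.H60.IsL2QBase Φ B → ∀ g : G F, B.IsBad g →
        ∃ E : L2QPre732 F, IsL2QPreOp732 Φ (toBase962_732 B) g E ∧
          IsL2QPreSupp732 (toBase962_732 B) E ∧
          ∃ m₂ : List (Gen F) → ℕ,
            ∀ (X : List (Gen F)) (k : ℤ) (m : ℕ), (∀ x ∈ X, x.Out B.S') → m₂ X ≤ m →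
              IsGlobMatch ((toBase962_732 B).comp E.𝔫) (E.up (toBase962_732 B) X k m)
                (E.dsum (toBase962_732 B) X k m)

end Node

/-! ## Appendix: the equation lemmas of the definitions of this file are realised HERE -/

theorem eqns_realised_supplyQPre732 : True := by
  have _h0_0 := @L2QPre732.dsum.eq_1
  have _h0_1 := @L2QPre732.dsum.eq_def
  have _h0_2 := @L2QPre732.dsum.eq_unfold
  have _h1_0 := @PreGeoQ60C732.eq_1
  have _h1_1 := @PreGeoQ60C732.eq_def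
  have _h1_2 := @PreGeoQ60C732.eq_unfold
  trivial

end Fermat.Agent.LT.T7.H732

end
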