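import Mathlib
import Fermat.Agent.LT.T7.H732.SupplyQPreSpec

/-!
# Row LT, tower T7, node T7.L2Q.1.G0 `PreGeoQ60C732` (quadratic step `F = ℚ(√-3)` over `ℚ`):
# FOURTH CUT -- Spec (helper732, registry row 2322; mirror of helper893 `SupplyGeoSpec.lean`)

OFF-MAIN.  Definitions and frozen Props only (the proved top is `SupplyQGeoTop.lean`).  No hole,
nothing assumed.  ADDITIVE (new names only, all suffixed `732`).

    preGeoQ60C_of732 : GlobQC732 F Mt → ConstrQ60C732 P F Mt → EkProdUpOpQC732 F
                         → EkProdDownOpQC732 F → H893.RegSuppC F → H893.RegSupp0C ℚ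
                         → PreGeoQ60C732 P F                              (for EVERY `Mt`)

## The cut: GLOBAL matching is split off from the construction

The cut is PARAMETRIC in a relation

    Mt : L2QBase962 F → Ideal (𝓞 ℚ) → (G F → ℂ) → (QWt → G ℚ → ℂ) → Prop

"`φ'` (over `F`, level `𝔫 𝒪_F`, trivial type) and the pair `f w0`, `f w1` (over `ℚ`, level `𝔫`,
types `w0`, `w1`) are LOCALLY MATCHED DECOMPOSABLE functions": pure tensors (or finite sums and
averages of pure tensors) with matched local factors at the finite places, and at infinity the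
bi-`U(2)`-invariant factor of `φ'` at the complex place of `F` is matched with the SUM of the
factors of `f w0` and `f w1` at the real place (`T6.ArchMatchC`, closed sub-tower T6inf).  The
top is proved for every relation.

* **`GlobQC732 F Mt`** (NODE = the matching theorem over `ℚ`): locally matched test functions
  which are regular are MATCHED (`IsGlobMatch`, the member upstairs against the sum downstairs).
  Stated for the common parts of helper962 (the larger class: the set `S` plays no role), so it
  serves both first cuts.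
* **`ConstrQ60C732 P F Mt`** (NODE = the construction, for the common parts of helper60):
  pre-data with the operator properties (`IsL2QPreOp732`), the supports (`IsL2QPreSupp732`) and
  LOCALLY matched families.  Input: station T3.18R (Eisenstein-killing test functions over `ℚ`
  of the types `w0`, `w1`).
* the hypotheses of `GlobQC732` for the families are supplied by the leaves of the second and
  third cut: test functions by `EkProdUpOpQC732` / `EkProdDownOpQC732` (the leaves
  `EkProdUpQC732` / `EkProdDownQC732` of the second cut IN OPERATOR FORM: same proofs, only the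
  operator fields of the pre-data are used), regularity by `H893.RegSuppC F` / `H893.RegSupp0C ℚ`
  and the closed device of T5.
-/

set_option autoImplicit false

open AutomorphicForm IsDedekindDomain NumberField MeasureTheory
open scoped ComplexConjugate

noncomputable section

namespace Fermat.Agent.LT.T7.H732

open Fermat.Agent.LT.H556 Fermat.Agent.LT.H556.A0 Fermat.Agent.LT.T7 Fermat.Agent.LT.T7.L2Q
  Fermat.Agent.LT.T7.H893 Fermat.Agent.LT.T7.H962

attribute [local instance] Fermat.Agent.LT.T5.instMeasurableSpaceG

section Leaves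

variable (P : EKCond)
variable (F : Type) [Field F] [NumberField F]

/-- The type of the relations "locally matched decomposable functions", quadratic step. -/
abbrev MtRelQ732 : Type :=
  L2QBase962 F → Ideal (𝓞 ℚ) → (G F → ℂ) → (QWt → G ℚ → ℂ) → Prop

variable (Mt : MtRelQ732 F)

/-- **NODE T7.L2Q.1.H1 = GLOB over `ℚ` (the matching theorem).**  For a good common part and a
level `𝔫 ≠ 0`: a test function `φ'` of level `𝔫 𝒪_F` (trivial type) and test functions `f w0`,
`f w1` of level `𝔫` (types `w0`, `w1`) which are locally matched and `σ`-regular, resp. regular,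
are matched: `φ'` against `f w0 + f w1`. -/
def GlobQC732 : Prop :=
  HasSqrtNegThree F → IsImagQuad F →
    ∀ (Φ : HeckeEigensystem F ℂ) (B : L2QBase962 F), IsL2QBase962 Φ B →
    ∀ 𝔫 : Ideal (𝓞 ℚ), 𝔫 ≠ ⊥ →
    ∀ (φ' : G F → ℂ) (f : QWt → G ℚ → ℂ), Mt B 𝔫 φ' f →
      T5.IsTestFn (upI (K' := F) 𝔫) T5.trivType φ' → T5.IsTwRegular B.s 2 B.k φ' →
      (∀ n : QWt, T5.IsTestFn 𝔫 n.type (f n)) →
      (∀ n : QWt, T5.IsTwRegular (T5.AdelicAut.id ℚ) 1 ⊤ (f n)) →
      IsGlobMatch (B.comp 𝔫) φ' (fun x => f QWt.w0 x + f QWt.w1 x)

/-- **NODE T7.L2Q.1.H2 = CONSTR over `ℚ` (the construction), on the first cut of helper60.**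
For a common part of helper60 and one bad element there are pre-data with the operator
properties and the supports whose families are LOCALLY matched. -/
def ConstrQ60C732 : Prop :=
  HasSqrtNegThree F → IsImagQuad F →
    ∀ Φ : HeckeEigensystem F ℂ, A0.IsCuspAdelicSph0 F Φ → ConstOnFibresQ Φ → P F Φ →
      ∀ B : L2Q.H60.L2QBase F, L2Q.H60.IsL2QBase Φ B → ∀ g : G F, B.IsBad g →
        ∃ E : L2QPre732 F, IsL2QPreOp732 Φ (toBase962_732 B) g E ∧
          IsL2QPreSupp732 (toBase962_732 B) E ∧
          ∀ (X : List (Gen F)) (k : ℤ) (m : ℕ), (∀ x ∈ X, x.Out B.S') →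
            Mt (toBase962_732 B) E.𝔫 (E.up (toBase962_732 B) X k m)
              (fun n => E.down (toBase962_732 B) n X k m)

/-- **LEAF T7.L2Q.1.F1 in operator form.**  `EkProdUpQC732` for pre-data with the operator
properties only (the statement of the second cut uses `IsL2QPre732`; the proofs use the operator
fields only). -/
def EkProdUpOpQC732 : Prop :=
  ∀ (Φ : HeckeEigensystem F ℂ) (B : L2QBase962 F), IsL2QBase962 Φ B →
    ∀ g : G F, B.IsBad g → ∀ E : L2QPre732 F, IsL2QPreOp732 Φ B g E →
    ∀ (X : List (Gen F)) (k : ℤ) (m : ℕ), (∀ x ∈ X, x.Out B.S') →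
      IsEKProd (upI (K' := F) E.𝔫) B.R' (E.up B X k m)

/-- **LEAF T7.L2Q.1.F2 in operator form.**  `EkProdDownQC732` for pre-data with the operator
properties only. -/
def EkProdDownOpQC732 : Prop :=
  ∀ (Φ : HeckeEigensystem F ℂ) (B : L2QBase962 F), IsL2QBase962 Φ B →
    ∀ g : G F, B.IsBad g → ∀ E : L2QPre732 F, IsL2QPreOp732 Φ B g E →
    ∀ (n : QWt) (X : List (Gen F)) (k : ℤ) (m : ℕ), (∀ x ∈ X, x.Out B.S') →
      IsEKProdT n.type E.𝔫 B.R (E.down B n X k m)

end Leaves

/-! ## Appendix: the equation lemmas of the definitions of this file are realised HERE -/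

theorem eqns_realised_supplyQGeo732 : True := by
  have _h0_0 := @GlobQC732.eq_1
  have _h0_1 := @GlobQC732.eq_def
  have _h0_2 := @GlobQC732.eq_unfold
  have _h1_0 := @ConstrQ60C732.eq_1
  have _h1_1 := @ConstrQ60C732.eq_def
  have _h1_2 := @ConstrQ60C732.eq_unfold
  have _h2_0 := @EkProdUpOpQC732.eq_1
  have _h2_1 := @EkProdUpOpQC732.eq_def
  have _h2_2 := @EkProdUpOpQC732.eq_unfold
  have _h3_0 := @EkProdDownOpQC732.eq_1
  have _h3_1 := @EkProdDownOpQC732.eq_def
  have _h3_2 := @EkProdDownOpQC732.eq_unfold
  trivial

end Fermat.Agent.LT.T7.H732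

end
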