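import Mathlib
import Fermat.Agent.LT.T5.H32.RegConv
import Fermat.Agent.LT.T7.H732.SupplyQPreSpec

/-!
# Row LT, tower T7, node T7.L2Q.1.F0 `PreQ60C732` (quadratic step): THIRD CUT -- proved tops
(helper732, registry row 2322; mirror of helper893 `SupplyPreTop.lean`)

OFF-MAIN.  No hole, nothing assumed.  ADDITIVE.

    preQ60C_of_geo732  : PreGeoQ60C732 P F → H893.RegSuppC F → H893.RegSupp0C ℚ → PreQ60C732 P F
    supplyQSC_of_geo732 : SetupQC → ProjC F → ProjC ℚ → ProjW1C → PreGeoQ60C732 P F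
                            → RegSuppC F → RegSupp0C ℚ → (8 leaves of the second cut)
                            → L2Q.H60.SupplyQSC P F

Regularity: `T5.H32.exists_depth_conv32` / `exists_depth_conv_id32` (helper32, closed).
-/

set_option autoImplicit false

open AutomorphicForm IsDedekindDomain NumberField MeasureTheory
open scoped ComplexConjugate

noncomputable section

namespace Fermat.Agent.LT.T7.H732

open Fermat.Agent.LT.H556 Fermat.Agent.LT.H556.A0 Fermat.Agent.LT.T7 Fermat.Agent.LT.T7.L2Q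
  Fermat.Agent.LT.T7.H893 Fermat.Agent.LT.T7.H962

attribute [local instance] Fermat.Agent.LT.T5.instMeasurableSpaceG

section Top

variable {P : EKCond}
variable {F : Type} [Field F] [NumberField F]

/-- **Regularity upstairs from the supports**, quadratic step: one depth for every word. -/
theorem exists_depth_upQ732 {Φ : HeckeEigensystem F ℂ} {B : L2QBase962 F}
    (hB : IsL2QBase962 Φ B) {g : G F} (hg : B.IsBad g) {E : L2QPre732 F}
    (hOp : IsL2QPreOp732 Φ B g E) (hSupp : IsL2QPreSupp732 B E) (hR : RegSuppC F) :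
    ∃ mu : List (Gen F) → ℕ, ∀ (X : List (Gen F)) (k : ℤ) (m : ℕ),
      (∀ x ∈ X, x.Out B.S') → mu X ≤ m → T5.IsTwRegular B.s 2 B.k (E.up B X k m) := by
  obtain ⟨C₂, hC₂, hφ₂⟩ := hSupp.up2_supp
  obtain ⟨C₂', hC₂', hreg⟩ := hR B.𝔑₀ 2 B.o (by norm_num)
    (fun j => (hB.mem_S' _).1 (hB.orbit_level j)) g hg.1
    (fun j hj => hg.2 (B.o j) (Or.inr ⟨j, hj, rfl⟩)) E.Hg E.H' E.z' hOp.sysg hOp.sys' hOp.unif'
    E.φ₂ C₂ hC₂ hφ₂
  have hex : ∀ X : List (Gen F), ∃ mu : ℕ, (∀ x ∈ X, x.Out B.S') →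
      ∀ (k : ℤ) (m : ℕ), mu ≤ m → T5.IsTwRegular B.s 2 B.k (E.up B X k m) := by
    intro X
    by_cases hX : ∀ x ∈ X, x.Out B.S'
    · obtain ⟨C₁, hC₁, hΦ₁⟩ := hSupp.up1_supp X hX
      obtain ⟨m₀, hm₀⟩ := T5.H32.exists_depth_conv32 hB.cyc B.o hB.orbit_rel hB.orbit_ne
        hC₁ hC₂' B.R'.μ
      exact ⟨m₀, fun _ k m hm => (hm₀ m hm (E.Φ₁ X) _ hΦ₁ (hreg k m)).1⟩
    · exact ⟨0, fun h => absurd h hX⟩
  choose mu hmu using hex
  exact ⟨mu, fun X k m hX hm => hmu X hX k m hm⟩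

/-- **Regularity downstairs from the supports**, quadratic step: one depth for every word and
both types. -/
theorem exists_depth_downQ732 {Φ : HeckeEigensystem F ℂ} {B : L2QBase962 F}
    {g : G F} {E : L2QPre732 F}
    (hOp : IsL2QPreOp732 Φ B g E) (hSupp : IsL2QPreSupp732 B E) (hR0 : RegSupp0C ℚ) :
    ∃ md : List (Gen F) → ℕ, ∀ (n : QWt) (X : List (Gen F)) (k : ℤ) (m : ℕ),
      (∀ x ∈ X, x.Out B.S') → md X ≤ m →
        T5.IsTwRegular (T5.AdelicAut.id ℚ) 1 ⊤ (E.down B n X k m) := by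
  have hex : ∀ (n : QWt) (X : List (Gen F)), ∃ md : ℕ, (∀ x ∈ X, x.Out B.S') →
      ∀ (k : ℤ) (m : ℕ), md ≤ m →
        T5.IsTwRegular (T5.AdelicAut.id ℚ) 1 ⊤ (E.down B n X k m) := by
    intro n X
    obtain ⟨C₂, hC₂, hf₂⟩ := hSupp.dn2_supp n
    have hreg := hR0 B.u E.H E.z hOp.sys hOp.unif (E.f₂ n) C₂ hC₂ hf₂
    by_cases hX : ∀ x ∈ X, x.Out B.S'
    · obtain ⟨C₁, hC₁, hF₁⟩ := hSupp.dn1_supp n X hX
      obtain ⟨m₀, hm₀⟩ := T5.H32.exists_depth_conv_id32 B.u hC₁ hC₂ B.R.μ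
      exact ⟨m₀, fun _ k m hm => (hm₀ m hm (E.F₁ n X) _ hF₁ (hreg k m)).1⟩
    · exact ⟨0, fun h => absurd h hX⟩
  choose md hmd using hex
  refine ⟨fun X => max (md QWt.w0 X) (md QWt.w1 X), fun n X k m hX hm => ?_⟩
  cases n with
  | w0 => exact hmd QWt.w0 X hX k m (le_trans (le_max_left _ _) hm)
  | w1 => exact hmd QWt.w1 X hX k m (le_trans (le_max_right _ _) hm)

/-- The pre-data with the three depths merged. -/
theorem isL2QPre_of_geo732 {Φ : HeckeEigensystem F ℂ} {B : L2QBase962 F} {g : G F}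
    {E : L2QPre732 F} (hOp : IsL2QPreOp732 Φ B g E)
    {m₂ mu md : List (Gen F) → ℕ}
    (hM : ∀ (X : List (Gen F)) (k : ℤ) (m : ℕ), (∀ x ∈ X, x.Out B.S') → m₂ X ≤ m →
      IsGlobMatch (B.comp E.𝔫) (E.up B X k m) (E.dsum B X k m))
    (hmu : ∀ (X : List (Gen F)) (k : ℤ) (m : ℕ),
      (∀ x ∈ X, x.Out B.S') → mu X ≤ m → T5.IsTwRegular B.s 2 B.k (E.up B X k m))
    (hmd : ∀ (n : QWt) (X : List (Gen F)) (k : ℤ) (m : ℕ),
      (∀ x ∈ X, x.Out B.S') → md X ≤ m →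
        T5.IsTwRegular (T5.AdelicAut.id ℚ) 1 ⊤ (E.down B n X k m)) :
    IsL2QPre732 Φ B g { E with m₀ := fun X => max (m₂ X) (max (mu X) (md X)) } :=
  { level_ne := hOp.level_ne
    level_g := hOp.level_g
    mem_S'_g := hOp.mem_S'_g
    u_level := hOp.u_level
    sysg := hOp.sysg
    sys' := hOp.sys'
    unif' := hOp.unif'
    sys := hOp.sys
    unif := hOp.unif
    up1_test := hOp.up1_test
    up1_ek := hOp.up1_ek
    up1_op := hOp.up1_op
    up2_test := hOp.up2_test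
    up2_ek := hOp.up2_ek
    up2_inv := hOp.up2_inv
    up2_op := hOp.up2_op
    up2_kill := hOp.up2_kill
    up_ne := hOp.up_ne
    dn1_test := hOp.dn1_test
    dn1_ek := hOp.dn1_ek
    dn1_op := hOp.dn1_op
    dn1_wfn := hOp.dn1_wfn
    dn1_class := hOp.dn1_class
    dn1_comm := hOp.dn1_comm
    dn2_test := hOp.dn2_test
    dn2_ek := hOp.dn2_ek
    dn2_inv := hOp.dn2_inv
    dn2_wfn := hOp.dn2_wfn
    dn2_class := hOp.dn2_class
    dn2_comm := hOp.dn2_comm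
    dn2_kill := hOp.dn2_kill
    reg_up := fun X k m hX hm =>
      hmu X k m hX (le_trans (le_trans (le_max_left _ _) (le_max_right _ _)) hm)
    reg_down := fun n X k m hX hm =>
      hmd n X k m hX (le_trans (le_trans (le_max_right _ _) (le_max_right _ _)) hm)
    matched := fun X k m hX hm => hM X k m hX (le_trans (le_max_left _ _) hm) }

/-- **THE TOP OF THE THIRD CUT**, quadratic step: the pre-data from the construction with
matching, and the two support leaves of helper893. -/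
theorem preQ60C_of_geo732 (h0 : PreGeoQ60C732 P F) (hR : RegSuppC F) (hR0 : RegSupp0C ℚ) :
    PreQ60C732 P F := by
  intro h3 hquad Φ hΦ hconst hPΦ B hB g hg
  obtain ⟨E, hOp, hSupp, m₂, hM⟩ := h0 h3 hquad Φ hΦ hconst hPΦ B hB g hg
  have hB' := isL2QBase962_of60_732 hB
  obtain ⟨mu, hmu⟩ := exists_depth_upQ732 hB' hg hOp hSupp hR
  obtain ⟨md, hmd⟩ := exists_depth_downQ732 hOp hSupp hR0
  exact ⟨_, isL2QPre_of_geo732 hOp hM hmu hmd⟩

/-- **THE STABLE SUPPLY OVER `ℚ` from the leaves of the three cuts** (first cut: helper60). -/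
theorem supplyQSC_of_geo732 (hS : L2Q.H60.SetupQC F) (hP' : H893.ProjC F)
    (hP0 : H893.ProjC ℚ) (hP1 : L2Q.H60.ProjW1C) (h0 : PreGeoQ60C732 P F)
    (hR : RegSuppC F) (hR0 : RegSupp0C ℚ)
    (h1 : EkProdUpQC732 F) (h2 : EkProdDownQC732 F) (h3 : OpUpQC732 F) (h4 : KillUpQC732 F)
    (h5 : OpDownQC732 F) (h6 : ClassDownQC732 F) (h7 : CommDownQC732 F)
    (h8 : KillDownQC732 F) : L2Q.H60.SupplyQSC P F :=
  supplyQSC_of_leaves732 hS hP' hP0 hP1 (preQ60C_of_geo732 h0 hR hR0) h1 h2 h3 h4 h5 h6 h7 h8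

end Top

end Fermat.Agent.LT.T7.H732

end
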