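import Mathlib
import Fermat.Agent.LT.T7.H732.SupplyQPreTop
import Fermat.Agent.LT.T7.H732.SupplyQGeoSpec

/-!
# Row LT, tower T7, node T7.L2Q.1 `SupplyQC` (quadratic step): FOURTH CUT -- proved tops
(helper732, registry row 2322; mirror of helper893 `SupplyGeoTop.lean`)

OFF-MAIN.  No hole, nothing assumed.  ADDITIVE.

    preGeoQ60C_of732 : GlobQC732 F Mt → ConstrQ60C732 P F Mt → EkProdUpOpQC732 F
                         → EkProdDownOpQC732 F → RegSuppC F → RegSupp0C ℚ → PreGeoQ60C732 P F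
    supplyQSC_of_constr732 : (all leaves of the four cuts) → L2Q.H60.SupplyQSC P F
    supplyQC_of_constr732  : (the same) → L2Q.SupplyQC P F      (the node of `Level2Q.lean`)
-/

set_option autoImplicit false

open AutomorphicForm IsDedekindDomain NumberField MeasureTheory
open scoped ComplexConjugate

noncomputable section

namespace Fermat.Agent.LT.T7.H732

open Fermat.Agent.LT.H556 Fermat.Agent.LT.H556.A0 Fermat.Agent.LT.T7 Fermat.Agent.LT.T7.L2Q
  Fermat.Agent.LT.T7.H893 Fermat.Agent.LT.T7.H962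

attribute [local instance] Fermat.Agent.LT.T5.instMeasurableSpaceG

section Top

variable {P : EKCond}
variable {F : Type} [Field F] [NumberField F]

/-- The operator part of the properties of the pre-data. -/
theorem isL2QPreOp_of732 {Φ : HeckeEigensystem F ℂ} {B : L2QBase962 F} {g : G F}
    {E : L2QPre732 F} (h : IsL2QPre732 Φ B g E) : IsL2QPreOp732 Φ B g E where
  level_ne := h.level_ne
  level_g := h.level_g
  mem_S'_g := h.mem_S'_g
  u_level := h.u_level
  sysg := h.sysg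
  sys' := h.sys'
  unif' := h.unif'
  sys := h.sys
  unif := h.unif
  up1_test := h.up1_test
  up1_ek := h.up1_ek
  up1_op := h.up1_op
  up2_test := h.up2_test
  up2_ek := h.up2_ek
  up2_inv := h.up2_inv
  up2_op := h.up2_op
  up2_kill := h.up2_kill
  up_ne := h.up_ne
  dn1_test := h.dn1_test
  dn1_ek := h.dn1_ek
  dn1_op := h.dn1_op
  dn1_wfn := h.dn1_wfn
  dn1_class := h.dn1_class
  dn1_comm := h.dn1_comm
  dn2_test := h.dn2_test
  dn2_ek := h.dn2_ek
  dn2_inv := h.dn2_inv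
  dn2_wfn := h.dn2_wfn
  dn2_class := h.dn2_class
  dn2_comm := h.dn2_comm
  dn2_kill := h.dn2_kill

/-- The leaf `EkProdUpQC732` of the second cut from its operator form. -/
theorem ekProdUpQC_of_op732 (h : EkProdUpOpQC732 F) : EkProdUpQC732 F :=
  fun Φ B hB g hg E hE => h Φ B hB g hg E (isL2QPreOp_of732 hE)

/-- The leaf `EkProdDownQC732` of the second cut from its operator form. -/
theorem ekProdDownQC_of_op732 (h : EkProdDownOpQC732 F) : EkProdDownQC732 F :=
  fun Φ B hB g hg E hE => h Φ B hB g hg E (isL2QPreOp_of732 hE)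

variable {Mt : MtRelQ732 F}

/-- **THE TOP OF THE FOURTH CUT**, quadratic step: the construction with LOCALLY matched
families and the matching theorem give the construction with MATCHED families. -/
theorem preGeoQ60C_of732 (hG : GlobQC732 F Mt) (hC : ConstrQ60C732 P F Mt)
    (h1 : EkProdUpOpQC732 F) (h2 : EkProdDownOpQC732 F)
    (hR : RegSuppC F) (hR0 : RegSupp0C ℚ) : PreGeoQ60C732 P F := by
  intro h3 hquad Φ hΦ hconst hPΦ B hB g hg
  obtain ⟨E, hOp, hSupp, hMt⟩ := hC h3 hquad Φ hΦ hconst hPΦ B hB g hg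
  have hB' := isL2QBase962_of60_732 hB
  obtain ⟨mu, hmu⟩ := exists_depth_upQ732 hB' hg hOp hSupp hR
  obtain ⟨md, hmd⟩ := exists_depth_downQ732 hOp hSupp hR0
  refine ⟨E, hOp, hSupp, fun X => max (mu X) (md X), fun X k m hX hm => ?_⟩
  exact hG h3 hquad Φ (toBase962_732 B) hB' E.𝔫 hOp.level_ne _ _ (hMt X k m hX)
    (h1 Φ _ hB' g hg E hOp X k m hX).1 (hmu X k m hX (le_trans (le_max_left _ _) hm))
    (fun n => (h2 Φ _ hB' g hg E hOp n X k m hX).1)
    (fun n => hmd n X k m hX (le_trans (le_max_right _ _) hm))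

/-- **THE STABLE SUPPLY OVER `ℚ` from the leaves of the four cuts** (first cut: helper60). -/
theorem supplyQSC_of_constr732 (hS : L2Q.H60.SetupQC F) (hP' : H893.ProjC F)
    (hP0 : H893.ProjC ℚ) (hP1 : L2Q.H60.ProjW1C)
    (hG : GlobQC732 F Mt) (hC : ConstrQ60C732 P F Mt)
    (hR : RegSuppC F) (hR0 : RegSupp0C ℚ)
    (h1 : EkProdUpOpQC732 F) (h2 : EkProdDownOpQC732 F) (h3 : OpUpQC732 F)
    (h4 : KillUpQC732 F) (h5 : OpDownQC732 F) (h6 : ClassDownQC732 F)
    (h7 : CommDownQC732 F) (h8 : KillDownQC732 F) : L2Q.H60.SupplyQSC P F :=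
  supplyQSC_of_geo732 hS hP' hP0 hP1 (preGeoQ60C_of732 hG hC h1 h2 hR hR0) hR hR0
    (ekProdUpQC_of_op732 h1) (ekProdDownQC_of_op732 h2) h3 h4 h5 h6 h7 h8

/-- **THE SUPPLY OVER `ℚ` from the leaves of the four cuts** (target `L2Q.SupplyQC P F`,
VERBATIM: the node of `T7/H826/Level2Q.lean`). -/
theorem supplyQC_of_constr732 (hS : L2Q.H60.SetupQC F) (hP' : H893.ProjC F)
    (hP0 : H893.ProjC ℚ) (hP1 : L2Q.H60.ProjW1C)
    (hG : GlobQC732 F Mt) (hC : ConstrQ60C732 P F Mt)
    (hR : RegSuppC F) (hR0 : RegSupp0C ℚ)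
    (h1 : EkProdUpOpQC732 F) (h2 : EkProdDownOpQC732 F) (h3 : OpUpQC732 F)
    (h4 : KillUpQC732 F) (h5 : OpDownQC732 F) (h6 : ClassDownQC732 F)
    (h7 : CommDownQC732 F) (h8 : KillDownQC732 F) : L2Q.SupplyQC P F :=
  fun h3' hquad Φ hΦ hconst hPΦ =>
    let ⟨Dt, hDt, _⟩ := supplyQSC_of_constr732 hS hP' hP0 hP1 hG hC hR hR0
      h1 h2 h3 h4 h5 h6 h7 h8 h3' hquad Φ hΦ hconst hPΦ
    ⟨Dt, hDt⟩

end Top

end Fermat.Agent.LT.T7.H732

end
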