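import Mathlib
import Fermat.Agent.LT.T7.H60.SupplyQRam
import Fermat.Agent.LT.T7.H732.SupplyQGeoTop

/-!
# Row LT, tower T7, node T7.L2Q.1.F0 OF RECORD `L2Q.H60.PreQRC60` (quadratic step):
# THIRD + FOURTH CUT ON THE CUT OF RECORD v2 of helper60 (helper732, registry row 2322)

OFF-MAIN.  Two frozen nodes, PROVED tops.  No hole, nothing assumed.  ADDITIVE (new names only,
all suffixed `732`).  Vocabulary: `T7/H60/SupplyQRam.lean` (helper60@e0f6fdef3, sha256 1b96e813:
`IsRamQ60 B : 3 ∈ B.S`, nodes of record `SetupQRC60`, `FamQRC60`, `PreQRC60`),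
`T7/H732/SupplyQ{Pre,Geo}{Spec,Top}.lean` (third and fourth cut), byte-identical copies.

The nodes of the third and fourth cut quantify over the common parts of helper60 WITH THE
RAMIFIED PRIME (`3 ∈ S`; referee helper739, note 17973: for `3 ∉ S` the members downstairs would
be spherical at `3`, and the construction is false in general):

    preQRC_of_geo732   : PreGeoQRC732 P F → H893.RegSuppC F → H893.RegSupp0C ℚ
                           → L2Q.H60.PreQRC60 P F                                (VERBATIM)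
    preGeoQRC_of732    : GlobQC732 F Mt → ConstrQRC732 P F Mt → EkProdUpOpQC732 F
                           → EkProdDownOpQC732 F → RegSuppC F → RegSupp0C ℚ → PreGeoQRC732 P F
    supplyQSC29_of_constr732 : SetupQRC60 F → ProjC F → (∀ n, ProjQC962 n) → GlobQC732 F Mt
                           → ConstrQRC732 P F Mt → RegSuppC F → RegSupp0C ℚ
                           → (2 leaves in operator form + 6 leaves of the second cut)
                           → H29.SupplyQSC P F                (FORM OF RECORD, VERBATIM)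
    traceWordsQRegP_of_constr732 : … → T7.TraceWordsQRegP P F     (the quadratic step, VERBATIM)

* **`GlobQC732 F Mt`** (NODE, `SupplyQGeoSpec.lean`): UNCHANGED (the matching theorem holds for
  every common part; the local matching at the ramified place is part of `Mt`).
* **`ConstrQRC732 P F Mt`** (NODE OF RECORD = the construction): `ConstrQ60C732` for the common
  parts with `3 ∈ S`.  `ConstrQ60C732` (all common parts) is NOT used.
* **`PreGeoQRC732 P F`** (intermediate node of record): `PreGeoQ60C732` for the common parts with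
  `3 ∈ S`.
-/

set_option autoImplicit false

open AutomorphicForm IsDedekindDomain NumberField MeasureTheory
open scoped ComplexConjugate

noncomputable section

namespace Fermat.Agent.LT.T7.H732

open Fermat.Agent.LT.H556 Fermat.Agent.LT.H556.A0 Fermat.Agent.LT.T7 Fermat.Agent.LT.T7.L2Q
  Fermat.Agent.LT.T7.H893 Fermat.Agent.LT.T7.H962

attribute [local instance] Fermat.Agent.LT.T5.instMeasurableSpaceG

/-! ## 1. The nodes of record -/

section Nodes

variable (P : EKCond)
variable (F : Type) [Field F] [NumberField F]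

/-- **NODE T7.L2Q.1.G0 OF RECORD = PRE-GEO over `ℚ`** (construction + matching), for the common
parts of helper60 with `3 ∈ S`. -/
def PreGeoQRC732 : Prop :=
  HasSqrtNegThree F → IsImagQuad F →
    ∀ Φ : HeckeEigensystem F ℂ, A0.IsCuspAdelicSph0 F Φ → ConstOnFibresQ Φ → P F Φ →
      ∀ B : L2Q.H60.L2QBase F, L2Q.H60.IsL2QBase Φ B → L2Q.H60.IsRamQ60 B →
      ∀ g : G F, B.IsBad g →
        ∃ E : L2QPre732 F, IsL2QPreOp732 Φ (toBase962_732 B) g E ∧
          IsL2QPreSupp732 (toBase962_732 B) E ∧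
          ∃ m₂ : List (Gen F) → ℕ,
            ∀ (X : List (Gen F)) (k : ℤ) (m : ℕ), (∀ x ∈ X, x.Out B.S') → m₂ X ≤ m →
              IsGlobMatch ((toBase962_732 B).comp E.𝔫) (E.up (toBase962_732 B) X k m)
                (E.dsum (toBase962_732 B) X k m)

variable (Mt : MtRelQ732 F)

/-- **NODE T7.L2Q.1.H2 OF RECORD = CONSTR over `ℚ`** (the construction), for the common parts of
helper60 with `3 ∈ S`: pre-data with the operator properties and the supports whose families are
LOCALLY matched. -/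
def ConstrQRC732 : Prop :=
  HasSqrtNegThree F → IsImagQuad F →
    ∀ Φ : HeckeEigensystem F ℂ, A0.IsCuspAdelicSph0 F Φ → ConstOnFibresQ Φ → P F Φ →
      ∀ B : L2Q.H60.L2QBase F, L2Q.H60.IsL2QBase Φ B → L2Q.H60.IsRamQ60 B →
      ∀ g : G F, B.IsBad g →
        ∃ E : L2QPre732 F, IsL2QPreOp732 Φ (toBase962_732 B) g E ∧
          IsL2QPreSupp732 (toBase962_732 B) E ∧
          ∀ (X : List (Gen F)) (k : ℤ) (m : ℕ), (∀ x ∈ X, x.Out B.S') →
            Mt (toBase962_732 B) E.𝔫 (E.up (toBase962_732 B) X k m)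
              (fun n => E.down (toBase962_732 B) n X k m)

end Nodes

/-! ## 2. The tops -/

section Top

variable {P : EKCond}
variable {F : Type} [Field F] [NumberField F]
variable {Mt : MtRelQ732 F}

theorem preGeoQRC_of_preGeoQ60C732 (h : PreGeoQ60C732 P F) : PreGeoQRC732 P F :=
  fun h3 hquad Φ hΦ hconst hP B hB _ g hg => h h3 hquad Φ hΦ hconst hP B hB g hg

theorem constrQRC_of_constrQ60C732 (h : ConstrQ60C732 P F Mt) : ConstrQRC732 P F Mt :=
  fun h3 hquad Φ hΦ hconst hP B hB _ g hg => h h3 hquad Φ hΦ hconst hP B hB g hg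

/-- **THE TOP OF THE THIRD CUT, of record**: the node `PreQRC60` of helper60 (VERBATIM) from the
construction with matching and the two support leaves of helper893. -/
theorem preQRC_of_geo732 (h0 : PreGeoQRC732 P F) (hR : RegSuppC F) (hR0 : RegSupp0C ℚ) :
    L2Q.H60.PreQRC60 P F := by
  intro h3 hquad Φ hΦ hconst hPΦ B hB hram g hg
  obtain ⟨E, hOp, hSupp, m₂, hM⟩ := h0 h3 hquad Φ hΦ hconst hPΦ B hB hram g hg
  have hB' := isL2QBase962_of60_732 hB
  obtain ⟨mu, hmu⟩ := exists_depth_upQ732 hB' hg hOp hSupp hR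
  obtain ⟨md, hmd⟩ := exists_depth_downQ732 hOp hSupp hR0
  exact ⟨_, isL2QPre_of_geo732 hOp hM hmu hmd⟩

/-- **THE TOP OF THE FOURTH CUT, of record**: the construction with LOCALLY matched families and
the matching theorem give the construction with MATCHED families. -/
theorem preGeoQRC_of732 (hG : GlobQC732 F Mt) (hC : ConstrQRC732 P F Mt)
    (h1 : EkProdUpOpQC732 F) (h2 : EkProdDownOpQC732 F)
    (hR : RegSuppC F) (hR0 : RegSupp0C ℚ) : PreGeoQRC732 P F := by
  intro h3 hquad Φ hΦ hconst hPΦ B hB hram g hg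
  obtain ⟨E, hOp, hSupp, hMt⟩ := hC h3 hquad Φ hΦ hconst hPΦ B hB hram g hg
  have hB' := isL2QBase962_of60_732 hB
  obtain ⟨mu, hmu⟩ := exists_depth_upQ732 hB' hg hOp hSupp hR
  obtain ⟨md, hmd⟩ := exists_depth_downQ732 hOp hSupp hR0
  refine ⟨E, hOp, hSupp, fun X => max (mu X) (md X), fun X k m hX hm => ?_⟩
  exact hG h3 hquad Φ (toBase962_732 B) hB' E.𝔫 hOp.level_ne _ _ (hMt X k m hX)
    (h1 Φ _ hB' g hg E hOp X k m hX).1 (hmu X k m hX (le_trans (le_max_left _ _) hm))
    (fun n => (h2 Φ _ hB' g hg E hOp n X k m hX).1)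
    (fun n => hmd n X k m hX (le_trans (le_max_right _ _) hm))

/-- The node `PreQRC60` of record from the leaves and nodes of the third and fourth cut. -/
theorem preQRC_of_constr732 (hG : GlobQC732 F Mt) (hC : ConstrQRC732 P F Mt)
    (h1 : EkProdUpOpQC732 F) (h2 : EkProdDownOpQC732 F)
    (hR : RegSuppC F) (hR0 : RegSupp0C ℚ) : L2Q.H60.PreQRC60 P F :=
  preQRC_of_geo732 (preGeoQRC_of732 hG hC h1 h2 hR hR0) hR hR0

/-- **THE SUPPLY OVER `ℚ` IN THE FORM OF RECORD** (`H29.SupplyQSC P F`, VERBATIM) from the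
leaves and nodes of the four cuts. -/
theorem supplyQSC29_of_constr732 (hS : L2Q.H60.SetupQRC60 F) (hP' : H893.ProjC F)
    (hPQ : ∀ n : QWt, H962.ProjQC962 n)
    (hG : GlobQC732 F Mt) (hC : ConstrQRC732 P F Mt)
    (hR : RegSuppC F) (hR0 : RegSupp0C ℚ)
    (h1 : EkProdUpOpQC732 F) (h2 : EkProdDownOpQC732 F) (h3 : OpUpQC732 F)
    (h4 : KillUpQC732 F) (h5 : OpDownQC732 F) (h6 : ClassDownQC732 F)
    (h7 : CommDownQC732 F) (h8 : KillDownQC732 F) : H29.SupplyQSC P F :=
  L2Q.H60.supplyQSC29_of_leaves60 hS hP' hPQ (preQRC_of_constr732 hG hC h1 h2 hR hR0)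
    (ekProdUpQC_of_op732 h1) (ekProdDownQC_of_op732 h2) h3 h4 h5 h6 h7 h8

/-- **THE QUADRATIC STEP** (target `T7.TraceWordsQRegP P F`, VERBATIM) from the leaves and nodes
of the four cuts of the supply, the two core nodes upstairs, the node downstairs and the spectral
identity. -/
theorem traceWordsQRegP_of_constr732 (hS : L2Q.H60.SetupQRC60 F) (hP' : H893.ProjC F)
    (hPQ : ∀ n : QWt, H962.ProjQC962 n)
    (hG : GlobQC732 F Mt) (hC : ConstrQRC732 P F Mt)
    (hR : RegSuppC F) (hR0 : RegSupp0C ℚ)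
    (h1 : EkProdUpOpQC732 F) (h2 : EkProdDownOpQC732 F) (h3 : OpUpQC732 F)
    (h4 : KillUpQC732 F) (h5 : OpDownQC732 F) (h6 : ClassDownQC732 F)
    (h7 : CommDownQC732 F) (h8 : KillDownQC732 F)
    (hE : H29.ExpUpCoreC F) (hN : H29.NonVanCoreC F)
    (hD : L2Q.SpecDownQC F) (hI : L2Q.SpecIdQC F) : TraceWordsQRegP P F :=
  L2Q.H60.traceWordsQRegP_of_leaves60 hS hP' hPQ (preQRC_of_constr732 hG hC h1 h2 hR hR0)
    (ekProdUpQC_of_op732 h1) (ekProdDownQC_of_op732 h2) h3 h4 h5 h6 h7 h8 hE hN hD hI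

end Top

/-! ## Appendix: the equation lemmas of the definitions of this file are realised HERE -/

theorem eqns_realised_supplyQRamGeo732 : True := by
  have _h0_0 := @PreGeoQRC732.eq_1
  have _h0_1 := @PreGeoQRC732.eq_def
  have _h0_2 := @PreGeoQRC732.eq_unfold
  have _h1_0 := @ConstrQRC732.eq_1
  have _h1_1 := @ConstrQRC732.eq_def
  have _h1_2 := @ConstrQRC732.eq_unfold
  trivial

end Fermat.Agent.LT.T7.H732

end
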