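import Mathlib
import Fermat.Agent.LT.T7.H771.RegSuppNe
import Fermat.Agent.LT.T7.H771.RegSupp0
import Fermat.Agent.LT.T7.H732.SupplyQRamGeo

/-!
# Row LT, tower T7, node T7.L2Q.1.F0 OF RECORD `L2Q.H60.PreQRC60` (quadratic step): the tops of
# the THIRD + FOURTH CUT with the SUPPORT LEAVES DISCHARGED (helper732, registry row 2322)

OFF-MAIN.  PROVED tops only.  No hole, nothing assumed.  ADDITIVE (new names only, suffix `732`).

Referee helper739 (note 18159) / helper771: the support leaf `H893.RegSuppC` is FALSE AS TYPED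
(`H771.regSuppC_false771`: the orbit may repeat).  The tops of `SupplyQPreTop.lean`,
`SupplyQGeoTop.lean`, `SupplyQRamGeo.lean` which take `H893.RegSuppC F` are true but useless;
they are REPLACED by the tops of this file, which use the corrected and PROVED leaf
`H771.regSuppNeC771` (= `RegSuppC` + `orbit_ne`; `IsL2QBase962.orbit_ne` supplies it) and the
PROVED leaf `H771.regSupp0C771` (helper771@1ff4d7a9b, byte-identical copies):

    preQRC_of_geo_closed732    : PreGeoQRC732 P F → L2Q.H60.PreQRC60 P F           (VERBATIM)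
    preGeoQRC_of_closed732     : GlobQC732 F Mt → ConstrQRC732 P F Mt → EkProdUpOpQC732 F
                                   → EkProdDownOpQC732 F → PreGeoQRC732 P F
    preQRC_of_constr_closed732 : (the same four) → L2Q.H60.PreQRC60 P F            (VERBATIM)
    supplyQSC29_of_constr_closed732 : SetupQRC60 F → ProjC F → (∀ n, ProjQC962 n)
                                   → GlobQC732 F Mt → ConstrQRC732 P F Mt
                                   → (2 leaves in operator form + 6 leaves of the second cut)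
                                   → H29.SupplyQSC P F                 (FORM OF RECORD, VERBATIM)
    traceWordsQRegP_of_constr_closed732 : … → T7.TraceWordsQRegP P F   (the quadratic step)

The nodes (`GlobQC732`, `ConstrQRC732`) and the leaves are UNCHANGED.
-/

set_option autoImplicit false

open AutomorphicForm IsDedekindDomain NumberField MeasureTheory
open scoped ComplexConjugate

noncomputable section

namespace Fermat.Agent.LT.T7.H732

open Fermat.Agent.LT.H556 Fermat.Agent.LT.H556.A0 Fermat.Agent.LT.T7 Fermat.Agent.LT.T7.L2Q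
  Fermat.Agent.LT.T7.H893 Fermat.Agent.LT.T7.H962

attribute [local instance] Fermat.Agent.LT.T5.instMeasurableSpaceG

section Top

variable {P : EKCond}
variable {F : Type} [Field F] [NumberField F]
variable {Mt : MtRelQ732 F}

/-- **Regularity upstairs from the supports**, quadratic step, UNCONDITIONAL (the corrected
support leaf of helper771 is proved): one depth for every word. -/
theorem exists_depth_upQ_closed732 {Φ : HeckeEigensystem F ℂ} {B : L2QBase962 F}
    (hB : IsL2QBase962 Φ B) {g : G F} (hg : B.IsBad g) {E : L2QPre732 F}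
    (hOp : IsL2QPreOp732 Φ B g E) (hSupp : IsL2QPreSupp732 B E) :
    ∃ mu : List (Gen F) → ℕ, ∀ (X : List (Gen F)) (k : ℤ) (m : ℕ),
      (∀ x ∈ X, x.Out B.S') → mu X ≤ m → T5.IsTwRegular B.s 2 B.k (E.up B X k m) := by
  obtain ⟨C₂, hC₂, hφ₂⟩ := hSupp.up2_supp
  obtain ⟨C₂', hC₂', hreg⟩ := H771.regSuppNeC771 F B.𝔑₀ 2 B.o (by norm_num)
    (fun j => (hB.mem_S' _).1 (hB.orbit_level j)) hB.orbit_ne g hg.1
    (fun j hj => hg.2 (B.o j) (Or.inr ⟨j, hj, rfl⟩)) E.Hg E.H' E.z' hOp.sysg hOp.sys' hOp.unif'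
    E.φ₂ C₂ hC₂ hφ₂
  have hex : ∀ X : List (Gen F), ∃ mu : ℕ, (∀ x ∈ X, x.Out B.S') →
      ∀ (k : ℤ) (m : ℕ), mu ≤ m → T5.IsTwRegular B.s 2 B.k (E.up B X k m) := by
    intro X
    by_cases hX : ∀ x ∈ X, x.Out B.S'
    · obtain ⟨C₁, hC₁, hΦ₁⟩ := hSupp.up1_supp X hX
      obtain ⟨m₀, hm₀⟩ := T5.H32.exists_depth_conv32 hB.cyc B.o hB.orbit_rel hB.orbit_ne
        hC₁ hC₂' B.R'.μ
      exact ⟨m₀, fun _ k m hm => (hm₀ m hm (E.Φ₁ X) _ hΦ₁ (hreg k m)).1⟩
    · exact ⟨0, fun h => absurd h hX⟩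
  choose mu hmu using hex
  exact ⟨mu, fun X k m hX hm => hmu X hX k m hm⟩

/-- **Regularity downstairs from the supports**, quadratic step, UNCONDITIONAL. -/
theorem exists_depth_downQ_closed732 {Φ : HeckeEigensystem F ℂ} {B : L2QBase962 F}
    {g : G F} {E : L2QPre732 F}
    (hOp : IsL2QPreOp732 Φ B g E) (hSupp : IsL2QPreSupp732 B E) :
    ∃ md : List (Gen F) → ℕ, ∀ (n : QWt) (X : List (Gen F)) (k : ℤ) (m : ℕ),
      (∀ x ∈ X, x.Out B.S') → md X ≤ m →
        T5.IsTwRegular (T5.AdelicAut.id ℚ) 1 ⊤ (E.down B n X k m) :=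
  exists_depth_downQ732 hOp hSupp (H771.regSupp0C771 ℚ)

/-- **THE TOP OF THE THIRD CUT, of record, support leaves closed**: the node `PreQRC60` of
helper60 (VERBATIM) from the construction with matching ALONE. -/
theorem preQRC_of_geo_closed732 (h0 : PreGeoQRC732 P F) : L2Q.H60.PreQRC60 P F := by
  intro h3 hquad Φ hΦ hconst hPΦ B hB hram g hg
  obtain ⟨E, hOp, hSupp, m₂, hM⟩ := h0 h3 hquad Φ hΦ hconst hPΦ B hB hram g hg
  have hB' := isL2QBase962_of60_732 hB
  obtain ⟨mu, hmu⟩ := exists_depth_upQ_closed732 hB' hg hOp hSupp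
  obtain ⟨md, hmd⟩ := exists_depth_downQ_closed732 hOp hSupp
  exact ⟨_, isL2QPre_of_geo732 hOp hM hmu hmd⟩

/-- **THE TOP OF THE FOURTH CUT, of record, support leaves closed.** -/
theorem preGeoQRC_of_closed732 (hG : GlobQC732 F Mt) (hC : ConstrQRC732 P F Mt)
    (h1 : EkProdUpOpQC732 F) (h2 : EkProdDownOpQC732 F) : PreGeoQRC732 P F := by
  intro h3 hquad Φ hΦ hconst hPΦ B hB hram g hg
  obtain ⟨E, hOp, hSupp, hMt⟩ := hC h3 hquad Φ hΦ hconst hPΦ B hB hram g hg
  have hB' := isL2QBase962_of60_732 hB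
  obtain ⟨mu, hmu⟩ := exists_depth_upQ_closed732 hB' hg hOp hSupp
  obtain ⟨md, hmd⟩ := exists_depth_downQ_closed732 hOp hSupp
  refine ⟨E, hOp, hSupp, fun X => max (mu X) (md X), fun X k m hX hm => ?_⟩
  exact hG h3 hquad Φ (toBase962_732 B) hB' E.𝔫 hOp.level_ne _ _ (hMt X k m hX)
    (h1 Φ _ hB' g hg E hOp X k m hX).1 (hmu X k m hX (le_trans (le_max_left _ _) hm))
    (fun n => (h2 Φ _ hB' g hg E hOp n X k m hX).1)
    (fun n => hmd n X k m hX (le_trans (le_max_right _ _) hm))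

/-- The node `PreQRC60` of record from the two nodes and the two leaves in operator form. -/
theorem preQRC_of_constr_closed732 (hG : GlobQC732 F Mt) (hC : ConstrQRC732 P F Mt)
    (h1 : EkProdUpOpQC732 F) (h2 : EkProdDownOpQC732 F) : L2Q.H60.PreQRC60 P F :=
  preQRC_of_geo_closed732 (preGeoQRC_of_closed732 hG hC h1 h2)

/-- **THE SUPPLY OVER `ℚ` IN THE FORM OF RECORD** (`H29.SupplyQSC P F`, VERBATIM), support
leaves closed. -/
theorem supplyQSC29_of_constr_closed732 (hS : L2Q.H60.SetupQRC60 F) (hP' : H893.ProjC F)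
    (hPQ : ∀ n : QWt, H962.ProjQC962 n)
    (hG : GlobQC732 F Mt) (hC : ConstrQRC732 P F Mt)
    (h1 : EkProdUpOpQC732 F) (h2 : EkProdDownOpQC732 F) (h3 : OpUpQC732 F)
    (h4 : KillUpQC732 F) (h5 : OpDownQC732 F) (h6 : ClassDownQC732 F)
    (h7 : CommDownQC732 F) (h8 : KillDownQC732 F) : H29.SupplyQSC P F :=
  L2Q.H60.supplyQSC29_of_leaves60 hS hP' hPQ (preQRC_of_constr_closed732 hG hC h1 h2)
    (ekProdUpQC_of_op732 h1) (ekProdDownQC_of_op732 h2) h3 h4 h5 h6 h7 h8

/-- **THE QUADRATIC STEP** (target `T7.TraceWordsQRegP P F`, VERBATIM), support leaves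
closed. -/
theorem traceWordsQRegP_of_constr_closed732 (hS : L2Q.H60.SetupQRC60 F) (hP' : H893.ProjC F)
    (hPQ : ∀ n : QWt, H962.ProjQC962 n)
    (hG : GlobQC732 F Mt) (hC : ConstrQRC732 P F Mt)
    (h1 : EkProdUpOpQC732 F) (h2 : EkProdDownOpQC732 F) (h3 : OpUpQC732 F)
    (h4 : KillUpQC732 F) (h5 : OpDownQC732 F) (h6 : ClassDownQC732 F)
    (h7 : CommDownQC732 F) (h8 : KillDownQC732 F)
    (hE : H29.ExpUpCoreC F) (hN : H29.NonVanCoreC F)
    (hD : L2Q.SpecDownQC F) (hI : L2Q.SpecIdQC F) : TraceWordsQRegP P F :=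
  L2Q.H60.traceWordsQRegP_of_leaves60 hS hP' hPQ (preQRC_of_constr_closed732 hG hC h1 h2)
    (ekProdUpQC_of_op732 h1) (ekProdDownQC_of_op732 h2) h3 h4 h5 h6 h7 h8 hE hN hD hI

end Top

end Fermat.Agent.LT.T7.H732

end
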