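import Mathlib
import Fermat.Agent.LT.T7.H732.SupplyQRamClosed
import Fermat.Agent.LT.T7.H546.SetupQR
import Fermat.Agent.LT.T7.H40.ProjClosed
import Fermat.Agent.LT.T7.H40.ProjQ
import Fermat.Agent.LT.T7.H698.EkProdUpOpQ
import Fermat.Agent.LT.T7.H587.EkProdDownOpQ
import Fermat.Agent.LT.T7.H811.OpUpQClosed
import Fermat.Agent.LT.T7.H419.KillUpQ
import Fermat.Agent.LT.T7.H426.OpDownQ
import Fermat.Agent.LT.T7.H131.SupplyQFam

/-!
# Row LT, tower T7, node T7.L2Q.1 `SupplyQC` (quadratic step): INTEGRATION of the closed leaves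
(helper732, registry row 2322) -- THE SUPPLY OVER `ℚ` FROM THE TWO OPEN NODES

OFF-MAIN.  PROVED tops only.  No hole, nothing assumed.  ADDITIVE (new names only, suffix `732`).
ONE import closure, on the MASTER bytes of the common files (helper17@1b33bfd76: `T5/Spec`
8bcd82df, `T6/Spec` c1b839bc, `T2/Spec` b934629a, `Level2Q` v1.1 d2117efc).

ALL leaves of the four cuts of `SupplyQC` are closed and plugged here (byte-identical copies of
the files of their authors):

| leaf | proof |
|---|---|
| `L2Q.H60.SetupQRC60 F` | helper546 `T7/H546/SetupQR.lean`, `setupQRC60_546` |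
| `H893.ProjC F` | helper40 `T7/H40/ProjClosed.lean`, `projC893_closed40` |
| `H962.ProjQC962 n` | helper40 `T7/H40/ProjQ.lean`, `projQC962_closed40` |
| `EkProdUpOpQC732 F` (row 2466) | helper698 `T7/H698/EkProdUpOpQ.lean`, `ekProdUpOpQC698` |
| `EkProdDownOpQC732 F` (row 2467) | helper587 `T7/H587/EkProdDownOpQ.lean`, `ekProdDownOpQC587` |
| `OpUpQC732 F` (row 2316) | helper811 `T7/H811/OpUpQClosed.lean`, `opUpQC811` |
| `KillUpQC732 F` (row 2317) | helper419 `T7/H419/KillUpQ.lean`, `killUpQC419` |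
| `OpDownQC732 F` (row 2318) | helper426 `T7/H426/OpDownQ.lean`, `opDownQC426` |
| `ClassDownQC732 F`, `CommDownQC732 F`, `KillDownQC732 F` (rows 2319-2321) | helper131 `T7/H131/SupplyQFam.lean` |
| `H771.RegSuppNeC771 F`, `H893.RegSupp0C ℚ` | helper771 (in `SupplyQRamClosed.lean`) |

What is OPEN in the supply over `ℚ`: the TWO NODES

    GlobQC732 F Mt        (row 2464: the matching theorem over `ℚ`)
    ConstrQRC732 P F Mt   (row 2465: the construction, common parts with `3 ∈ S`)

for ONE relation `Mt : MtRelQ732 F` of local matching.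

    preQRC_of_nodes732        : GlobQC732 F Mt → ConstrQRC732 P F Mt → L2Q.H60.PreQRC60 P F
    supplyQSC29_of_nodes732   : GlobQC732 F Mt → ConstrQRC732 P F Mt → H29.SupplyQSC P F
    supplyQC_of_nodes732      : GlobQC732 F Mt → ConstrQRC732 P F Mt → L2Q.SupplyQC P F
    traceWordsQRegP_of_nodes732 : GlobQC732 F Mt → ConstrQRC732 P F Mt → H29.ExpUpCoreC F
        → H29.NonVanCoreC F → L2Q.SpecDownQC F → L2Q.SpecIdQC F → T7.TraceWordsQRegP P F
-/

set_option autoImplicit false

open AutomorphicForm IsDedekindDomain NumberField MeasureTheory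
open scoped ComplexConjugate

noncomputable section

namespace Fermat.Agent.LT.T7.H732

open Fermat.Agent.LT.H556 Fermat.Agent.LT.H556.A0 Fermat.Agent.LT.T7 Fermat.Agent.LT.T7.L2Q
  Fermat.Agent.LT.T7.H893 Fermat.Agent.LT.T7.H962

attribute [local instance] Fermat.Agent.LT.T5.instMeasurableSpaceG

section Top

variable {P : EKCond}
variable {F : Type} [Field F] [NumberField F]
variable {Mt : MtRelQ732 F}

/-- The node of record `PreQRC60` from the two open nodes (all leaves closed). -/
theorem preQRC_of_nodes732 (hG : GlobQC732 F Mt) (hC : ConstrQRC732 P F Mt) :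
    L2Q.H60.PreQRC60 P F :=
  preQRC_of_constr_closed732 hG hC (H698.ekProdUpOpQC698 F) (H587.ekProdDownOpQC587 F)

/-- **THE SUPPLY OVER `ℚ` IN THE FORM OF RECORD** (`H29.SupplyQSC P F`, VERBATIM) from the two
open nodes (all leaves closed). -/
theorem supplyQSC29_of_nodes732 (hG : GlobQC732 F Mt) (hC : ConstrQRC732 P F Mt) :
    H29.SupplyQSC P F :=
  supplyQSC29_of_constr_closed732 (H546.setupQRC60_546 F) (H40.projC893_closed40 F)
    (fun n => H40.projQC962_closed40 n) hG hC
    (H698.ekProdUpOpQC698 F) (H587.ekProdDownOpQC587 F) (H811.opUpQC811 F)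
    (H419.killUpQC419 (F := F)) (H426.opDownQC426 (F := F)) (H131.classDownQC_h131 (F := F))
    (H131.commDownQC_h131 (F := F)) (H131.killDownQC_h131 (F := F))

/-- **THE NODE `L2Q.SupplyQC P F`** (Level2Q, VERBATIM) from the two open nodes. -/
theorem supplyQC_of_nodes732 (hG : GlobQC732 F Mt) (hC : ConstrQRC732 P F Mt) :
    L2Q.SupplyQC P F :=
  fun h3 hquad Φ hΦ hconst hPΦ =>
    let ⟨Dt, hDt, _⟩ := supplyQSC29_of_nodes732 hG hC h3 hquad Φ hΦ hconst hPΦ
    ⟨Dt, hDt⟩

/-- **THE QUADRATIC STEP** (target `T7.TraceWordsQRegP P F`, VERBATIM) from the two open nodes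
of the supply, the two core nodes upstairs, the node downstairs and the spectral identity. -/
theorem traceWordsQRegP_of_nodes732 (hG : GlobQC732 F Mt) (hC : ConstrQRC732 P F Mt)
    (hE : H29.ExpUpCoreC F) (hN : H29.NonVanCoreC F)
    (hD : L2Q.SpecDownQC F) (hI : L2Q.SpecIdQC F) : TraceWordsQRegP P F :=
  H29.traceWordsQRegP_ofCore2 (supplyQSC29_of_nodes732 hG hC) hE hN hD hI

end Top

end Fermat.Agent.LT.T7.H732

end
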