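import Mathlib
import Fermat.Agent.LT.T7.H732.SupplyQOpen
import Fermat.Agent.LT.T7.H298.MatchQClosed
import Fermat.Agent.LT.T7.H801.SupplyQConstrTop
import Fermat.Agent.LT.T7.H228.AvgMatchQ

/-!
# Row LT, tower T7, node T7.L2Q.1 `SupplyQ` (quadratic step `F/ℚ`): THE WALL OF RECORD in ONE
# closure (helper732, registry row 2322) -- bridge + integration

OFF-MAIN.  Complete proofs, nothing assumed.  ADDITIVE (new names only, suffix `732`).

## What is joined here (ruling 17:46Z of helper797: ONE chain over `ℚ`)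

* THE MATCHING CHAIN, v2, of helper298 (`T7/H298/MatchQSpec2.lean`, `MatchQCut2.lean`,
  `MatchQClosed.lean`): `MQ298.LocHypQ298b` (split clause for ONE enumeration),
  `MQ298.globMatchQC_of_open298 : HasSqrtNegThree F → OpenMatchQ298 F → GlobMatchQC298b F`
  (all closed leaves of the two cuts plugged; open = `OpenMatchQ298 F`).
* THE CONSTRUCTION CHAIN, v2-correct form, of helper801 (`T7/H801/SupplyQConstrSpec.lean`,
  `SupplyQConstrTop.lean`): `CQ801.LocHypQb801`, `CQ801.GlobMatchQCb801`, the relation of record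
  `CQ801.MtQ801 κ`, the nodes `CQ801.BaseQC801 P F`, `CQ801.ProdMtQC801 F κ`, the leaf
  `CQ801.AvgMatchQC801 F` (closed: helper228 `avgMatchQC228`).
* THE TOPS of the supply over `ℚ` of helper732 (`T7/H732/SupplyQOpen.lean`): the two nodes of
  record `GlobQC732 F Mt`, `ConstrQRC732 P F Mt` give `H29.SupplyQSC P F`.

The two structures of local hypotheses `MQ298.LocHypQ298b` and `CQ801.LocHypQb801` have THE
SAME fields (they were typed independently from the same source); the bridge is the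
field-by-field translation:

    locHypQ_iff732          : CQ801.LocHypQb801 … ↔ MQ298.LocHypQ298b …
    isMatchConstQ_iff732    : CQ801.IsMatchConstQb801 F … κ ↔ MQ298.IsMatchConstQ298b F … κ
    globMatchQ_iff732       : CQ801.GlobMatchQCb801 F ↔ MQ298.GlobMatchQC298b F
    cutIntQ_iff732          : CQ801.CutIntQCb801 F ↔ MQ298.CutIntQC298b F

## The wall of record of the supply over `ℚ`

    structure OpenSupplyQ732 P F : matching : MQ298.OpenMatchQ298 F
                                   base     : CQ801.BaseQC801 P F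
                                   prod     : ∀ κ nowhere zero, CQ801.ProdMtQC801 F κ

    nodesQ_of_open732          : OpenSupplyQ732 P F → ∃ Mt, GlobQC732 F Mt ∧ ConstrQRC732 P F Mt
    supplyQSC29_of_open732     : OpenSupplyQ732 P F → H29.SupplyQSC P F          (VERBATIM)
    supplyQC_of_open732        : OpenSupplyQ732 P F → L2Q.SupplyQC P F
    traceWordsQRegP_of_open732 : OpenSupplyQ732 P F → H29.ExpUpCoreC F → H29.NonVanCoreC F
                                   → L2Q.SpecDownQC F → L2Q.SpecIdQC F → T7.TraceWordsQRegP P F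

(`HasSqrtNegThree F` is the first hypothesis of both nodes of record: when it fails the nodes
hold for every relation, so the wall needs no such hypothesis.)
-/

set_option autoImplicit false

open AutomorphicForm IsDedekindDomain NumberField MeasureTheory
open scoped ComplexConjugate

noncomputable section

namespace Fermat.Agent.LT.T7.H732

open Fermat.Agent.LT.H556 Fermat.Agent.LT.H556.A0 Fermat.Agent.LT.T7 Fermat.Agent.LT.T7.L2Q
open Fermat.Agent.LT.T7.H305

attribute [local instance] Fermat.Agent.LT.T5.instMeasurableSpaceG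

/-! ## 1. The bridge between the two typings of the local hypotheses, v2 -/

section Bridge

variable {F : Type} [Field F] [NumberField F]

/-- The local hypotheses of helper801 from those of helper298 (same fields). -/
theorem locHypQb801_of298b732 {D : CompData ℚ F} {μr : @Measure (GL (Fin 2) ℝ) (borel _)}
    {μc : @Measure (GL (Fin 2) ℂ) (borel _)} {T : Finset (HeightOneSpectrum (𝓞 ℚ))}
    {n : HeightOneSpectrum (𝓞 F) → ℕ} {m : HeightOneSpectrum (𝓞 ℚ) → ℕ}
    {φ₀ : ∀ w : HeightOneSpectrum (𝓞 F), GL (Fin 2) (w.adicCompletion F) → ℂ}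
    {Φ : InfinitePlace F → GL (Fin 2) ℂ → ℂ}
    {f₀ : ∀ v : HeightOneSpectrum (𝓞 ℚ), GL (Fin 2) (v.adicCompletion ℚ) → ℂ}
    {F0 F1 : GL (Fin 2) ℝ → ℂ}
    (h : MQ298.LocHypQ298b D μr μc T n m φ₀ Φ f₀ F0 F1) :
    CQ801.LocHypQb801 D μr μc T n m φ₀ Φ f₀ F0 F1 :=
  { inv_up := h.inv_up
    inv_down := h.inv_down
    arch_up := h.arch_up
    arch_down0 := h.arch_down0
    arch_down1 := h.arch_down1
    inert := h.inert
    split := h.split
    arch := h.arch }

/-- The local hypotheses of helper298 from those of helper801 (same fields). -/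
theorem locHypQ298b_of801_732 {D : CompData ℚ F} {μr : @Measure (GL (Fin 2) ℝ) (borel _)}
    {μc : @Measure (GL (Fin 2) ℂ) (borel _)} {T : Finset (HeightOneSpectrum (𝓞 ℚ))}
    {n : HeightOneSpectrum (𝓞 F) → ℕ} {m : HeightOneSpectrum (𝓞 ℚ) → ℕ}
    {φ₀ : ∀ w : HeightOneSpectrum (𝓞 F), GL (Fin 2) (w.adicCompletion F) → ℂ}
    {Φ : InfinitePlace F → GL (Fin 2) ℂ → ℂ}
    {f₀ : ∀ v : HeightOneSpectrum (𝓞 ℚ), GL (Fin 2) (v.adicCompletion ℚ) → ℂ}
    {F0 F1 : GL (Fin 2) ℝ → ℂ}
    (h : CQ801.LocHypQb801 D μr μc T n m φ₀ Φ f₀ F0 F1) :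
    MQ298.LocHypQ298b D μr μc T n m φ₀ Φ f₀ F0 F1 :=
  { inv_up := h.inv_up
    inv_down := h.inv_down
    arch_up := h.arch_up
    arch_down0 := h.arch_down0
    arch_down1 := h.arch_down1
    inert := h.inert
    split := h.split
    arch := h.arch }

/-- **The two typings of the local hypotheses over `ℚ`, v2, agree.** -/
theorem locHypQ_iff732 {D : CompData ℚ F} {μr : @Measure (GL (Fin 2) ℝ) (borel _)}
    {μc : @Measure (GL (Fin 2) ℂ) (borel _)} {T : Finset (HeightOneSpectrum (𝓞 ℚ))}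
    {n : HeightOneSpectrum (𝓞 F) → ℕ} {m : HeightOneSpectrum (𝓞 ℚ) → ℕ}
    {φ₀ : ∀ w : HeightOneSpectrum (𝓞 F), GL (Fin 2) (w.adicCompletion F) → ℂ}
    {Φ : InfinitePlace F → GL (Fin 2) ℂ → ℂ}
    {f₀ : ∀ v : HeightOneSpectrum (𝓞 ℚ), GL (Fin 2) (v.adicCompletion ℚ) → ℂ}
    {F0 F1 : GL (Fin 2) ℝ → ℂ} :
    CQ801.LocHypQb801 D μr μc T n m φ₀ Φ f₀ F0 F1
      ↔ MQ298.LocHypQ298b D μr μc T n m φ₀ Φ f₀ F0 F1 :=
  ⟨locHypQ298b_of801_732, locHypQb801_of298b732⟩

/-- The matching constants of the two typings agree. -/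
theorem isMatchConstQ_iff732 {D : CompData ℚ F} {μr : @Measure (GL (Fin 2) ℝ) (borel _)}
    {μc : @Measure (GL (Fin 2) ℂ) (borel _)} {T₀ : Finset (HeightOneSpectrum (𝓞 ℚ))}
    {n : HeightOneSpectrum (𝓞 F) → ℕ} {m : HeightOneSpectrum (𝓞 ℚ) → ℕ} {κ : ℂ} :
    CQ801.IsMatchConstQb801 F D μr μc T₀ n m κ
      ↔ MQ298.IsMatchConstQ298b F D μr μc T₀ n m κ := by
  constructor
  · intro h T T' hTT hT' φ₀ Φ f₀ F0 F1 hloc
    exact h T T' hTT hT' φ₀ Φ f₀ F0 F1 (locHypQb801_of298b732 hloc)
  · intro h T T' hTT hT' φ₀ Φ f₀ F0 F1 hloc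
    exact h T T' hTT hT' φ₀ Φ f₀ F0 F1 (locHypQ298b_of801_732 hloc)

variable (F)

/-- **THE MATCHING THEOREM over `ℚ`, v2: the two typings agree.** -/
theorem globMatchQ_iff732 : CQ801.GlobMatchQCb801 F ↔ MQ298.GlobMatchQC298b F := by
  constructor
  · intro h hF D hD hcyc hl μr hμr μc hμc T₀ hram n m hlev
    obtain ⟨κ, hκ, hM⟩ := h hF D hD hcyc hl μr hμr μc hμc T₀ hram n m hlev
    exact ⟨κ, hκ, isMatchConstQ_iff732.1 hM⟩
  · intro h hF D hD hcyc hl μr hμr μc hμc T₀ hram n m hlev
    obtain ⟨κ, hκ, hM⟩ := h hF D hD hcyc hl μr hμr μc hμc T₀ hram n m hlev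
    exact ⟨κ, hκ, isMatchConstQ_iff732.2 hM⟩

/-- **THE CORE NODE over `ℚ`, v2: the two typings agree.** -/
theorem cutIntQ_iff732 : CQ801.CutIntQCb801 F ↔ MQ298.CutIntQC298b F := by
  constructor
  · intro h hF D hD hcyc hl ι hι μr hμr μc hμc T₀ hram n m hlev
    obtain ⟨κ, hκ, hM⟩ := h hF D hD hcyc hl ι hι μr hμr μc hμc T₀ hram n m hlev
    exact ⟨κ, hκ, fun T T' hTT hT' φ₀ Φ f₀ F0 F1 hloc =>
      hM T T' hTT hT' φ₀ Φ f₀ F0 F1 (locHypQb801_of298b732 hloc)⟩
  · intro h hF D hD hcyc hl ι hι μr hμr μc hμc T₀ hram n m hlev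
    obtain ⟨κ, hκ, hM⟩ := h hF D hD hcyc hl ι hι μr hμr μc hμc T₀ hram n m hlev
    exact ⟨κ, hκ, fun T T' hTT hT' φ₀ Φ f₀ F0 F1 hloc =>
      hM T T' hTT hT' φ₀ Φ f₀ F0 F1 (locHypQ298b_of801_732 hloc)⟩

end Bridge

/-! ## 2. The wall of record of the supply over `ℚ` -/

section Wall

variable (P : EKCond)
variable (F : Type) [Field F] [NumberField F]

/-- **THE OPEN WALL of the supply over `ℚ`** (state of record): the open wall of the matching
theorem of helper298 (v2), the base node and the calculus node of helper801. -/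
structure OpenSupplyQ732 : Prop where
  /-- the open leaves and nodes of the matching theorem over `ℚ` -/
  matching : MQ298.OpenMatchQ298 F
  /-- the base node (existence of the pre-data with the local shape) -/
  base : CQ801.BaseQC801 P F
  /-- the calculus of pure tensors, for every nowhere zero family of constants -/
  prod : ∀ κ : CQ801.KapFnQ801 F, (∀ D μr μc T₀ n m, κ D μr μc T₀ n m ≠ 0) →
    CQ801.ProdMtQC801 F κ

variable {P F}

/-- **THE TWO NODES OF RECORD** (rows 2464, 2465) for ONE relation, from the wall. -/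
theorem nodesQ_of_open732 (h : OpenSupplyQ732 P F) :
    ∃ Mt : MtRelQ732 F, GlobQC732 F Mt ∧ ConstrQRC732 P F Mt := by
  classical
  by_cases h3 : HasSqrtNegThree F
  · exact CQ801.nodesQ_of_fifth801
      ((globMatchQ_iff732 F).2 (MQ298.globMatchQC_of_open298 h3 h.matching))
      (H228.avgMatchQC228 F) h.base h.prod
  · exact ⟨fun _ _ _ _ => True, fun h3' => absurd h3' h3, fun h3' => absurd h3' h3⟩

/-- **THE SUPPLY OVER `ℚ` IN THE FORM OF RECORD, from the wall.** -/
theorem supplyQSC29_of_open732 (h : OpenSupplyQ732 P F) : H29.SupplyQSC P F := by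
  obtain ⟨Mt, hG, hC⟩ := nodesQ_of_open732 h
  exact supplyQSC29_of_nodes732 hG hC

/-- The supply over `ℚ` (form of the level-2 cut), from the wall. -/
theorem supplyQC_of_open732 (h : OpenSupplyQ732 P F) : L2Q.SupplyQC P F := by
  obtain ⟨Mt, hG, hC⟩ := nodesQ_of_open732 h
  exact supplyQC_of_nodes732 hG hC

/-- **THE TRACE IDENTITY of the quadratic step, from the wall** and the three other nodes of
the level-2 cut. -/
theorem traceWordsQRegP_of_open732 (h : OpenSupplyQ732 P F)
    (hE : H29.ExpUpCoreC F) (hN : H29.NonVanCoreC F)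
    (hD : L2Q.SpecDownQC F) (hI : L2Q.SpecIdQC F) : TraceWordsQRegP P F := by
  obtain ⟨Mt, hG, hC⟩ := nodesQ_of_open732 h
  exact traceWordsQRegP_of_nodes732 hG hC hE hN hD hI

end Wall

end Fermat.Agent.LT.T7.H732

end
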